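import Fermat.Agent.Corollaries.Ord.Basic

/-!
# The density of the primes which split in `ℚ(ζ_{r^m}, a^{1/r^k})`
-/

set_option autoImplicit false

open NumberField Filter Topology
open Fermat.Agent.Frob Fermat.Agent.FrobDensity Fermat.Agent.Cor.Cheb Fermat.Agent.Cor.Art

namespace Fermat.Agent.Cor.Ord

local notation "Qbar" => AlgebraicClosure ℚ

/-- `a` is generic for `r`: its `r`-th roots are not in `ℚ(ζ_{r^m})`, for all `m` -/
def Gen (a : ℤ) (r : ℕ) : Prop :=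
  ∀ m : ℕ, ∃ σ : GQ, (∀ z : Qbar, z ^ (r ^ m) = 1 → σ z = z) ∧ ∃ β : Qbar, β ^ r = a ∧ σ β ≠ β

/-- the translations by multiples of `r ^ k` in `Aff (r ^ m)` -/
def cset (r m k : ℕ) : Set (Aff (r ^ m)) :=
  {g | g.u = 1 ∧ ((r ^ (m - k) : ℕ) : ZMod (r ^ m)) * g.c = 0}

section count

variable {r m k : ℕ}

lemma card_torsion (hr : r ≠ 0) (hk : k ≤ m) :
    Nat.card {c : ZMod (r ^ m) // ((r ^ (m - k) : ℕ) : ZMod (r ^ m)) * c = 0} = r ^ (m - k) := by
  have hN : NeZero (r ^ m) := ⟨pow_ne_zero _ hr⟩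
  have hr0 : 0 < r := Nat.pos_of_ne_zero hr
  have h1 : addOrderOf ((r ^ k : ℕ) : ZMod (r ^ m)) = r ^ (m - k) := by
    rw [ZMod.addOrderOf_coe _ (pow_ne_zero _ hr), Nat.gcd_eq_right (pow_dvd_pow r hk),
      Nat.pow_div hk hr0]
  have key : Nat.card {c : ZMod (r ^ m) // ((r ^ (m - k) : ℕ) : ZMod (r ^ m)) * c = 0} =
      Nat.card (AddSubgroup.zmultiples ((r ^ k : ℕ) : ZMod (r ^ m))) := ?_
  · rw [key, Nat.card_zmultiples, h1]
  refine Nat.card_congr (Equiv.subtypeEquivRight fun c => ?_)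
  constructor
  · intro h
    have h2 : ((r ^ (m - k) * c.val : ℕ) : ZMod (r ^ m)) = 0 := by
      rw [Nat.cast_mul, ZMod.natCast_zmod_val]
      exact h
    rw [ZMod.natCast_eq_zero_iff] at h2
    have h3 : r ^ m = r ^ (m - k) * r ^ k := by rw [← pow_add, Nat.sub_add_cancel hk]
    obtain ⟨t, ht⟩ := Nat.dvd_of_mul_dvd_mul_left (pow_pos hr0 _) ((dvd_of_eq h3.symm).trans h2)
    refine AddSubgroup.mem_zmultiples_iff.mpr ⟨t, ?_⟩
    rw [natCast_zsmul, nsmul_eq_mul, ← Nat.cast_mul, mul_comm, ← ht, ZMod.natCast_zmod_val]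
  · intro h
    obtain ⟨t, rfl⟩ := AddSubgroup.mem_zmultiples_iff.mp h
    rw [zsmul_eq_mul, mul_left_comm, ← Nat.cast_mul, ← pow_add, Nat.sub_add_cancel hk,
      ZMod.natCast_self, mul_zero]

lemma card_cset (hr : r ≠ 0) (hk : k ≤ m) : Nat.card (cset r m k) = r ^ (m - k) := by
  rw [← card_torsion hr hk]
  refine Nat.card_congr ⟨fun g => ⟨g.1.c, g.2.2⟩, fun c => ⟨⟨c.1, 1⟩, rfl, c.2⟩, fun g => ?_,
    fun c => rfl⟩
  apply Subtype.ext
  ext
  · rfl
  · exact congrArg Units.val g.2.1.symm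

lemma card_aff (q : ℕ) [NeZero q] : Nat.card (Aff q) = q * q.totient := by
  rw [Nat.card_congr (Aff.equivProd q), Nat.card_prod, Nat.card_zmod, Nat.card_eq_fintype_card,
    ZMod.card_units_eq_totient]

lemma conj_mem_cset (x g : Aff (r ^ m)) : x⁻¹ * g * x ∈ cset r m k ↔ g ∈ cset r m k := by
  have h1 : (x⁻¹ * g * x).u = g.u := by
    simp only [Aff.mul_u, Aff.inv_u]
    rw [mul_comm, mul_inv_cancel_left]
  rw [cset, Set.mem_ofPred_eq, Set.mem_ofPred_eq, h1]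
  refine and_congr_right fun hu => ?_
  have h2 : (x⁻¹ * g * x).c = ((x.u⁻¹ : (ZMod (r ^ m))ˣ) : ZMod (r ^ m)) * g.c := by
    simp only [Aff.mul_c, Aff.mul_u, Aff.inv_c, Aff.inv_u, hu, mul_one]
    ring
  rw [h2, mul_left_comm, Units.mul_right_eq_zero]

end count

section

variable {a : ℤ} {r : ℕ}

/-- `aff` is surjective for generic `a` -/
theorem aff_surjective_of_gen (hr : r.Prime) (hg : Gen a r) (ha : a ≠ 0) {m : ℕ}
    [NeZero (r ^ m)] {ζ α : Qbar} (hζ : IsPrimitiveRoot ζ (r ^ m)) (hα : α ^ (r ^ m) = a) :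
    Function.Surjective (aff hζ hα ha) := by
  obtain ⟨σ, hσ, β, hβ, hne⟩ := hg m
  have h1 : cyc hζ σ = 1 := (cyc_eq_one_iff hζ σ).mpr (hσ ζ hζ.pow_eq_one)
  refine aff_surjective hζ hα ha h1 ?_
  rcases Nat.eq_zero_or_pos m with rfl | hm
  · have : Subsingleton (ZMod (r ^ 0)) := by
      rw [pow_zero]
      infer_instance
    exact isUnit_of_subsingleton _
  · obtain ⟨m', rfl⟩ : ∃ m', m = m' + 1 := ⟨m - 1, by omega⟩
    have hα' : (α ^ (r ^ m')) ^ r = a := by rw [← pow_mul, ← pow_succ, hα]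
    have ha' : ((a : ℤ) : Qbar) ≠ 0 := by exact_mod_cast ha
    have hα0 : α ^ (r ^ m') ≠ 0 := by
      intro h
      rw [h, zero_pow hr.ne_zero] at hα'
      exact ha' hα'.symm
    have hη : (β / α ^ (r ^ m')) ^ r = 1 := by rw [div_pow, hβ, hα', div_self ha']
    have hη' : σ (β / α ^ (r ^ m')) = β / α ^ (r ^ m') := by
      refine hσ _ ?_
      rw [pow_succ, mul_comm, pow_mul, hη, one_pow]
    have h2 : σ (α ^ (r ^ m')) ≠ α ^ (r ^ m') := by
      intro h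
      apply hne
      have h3 : β = β / α ^ (r ^ m') * α ^ (r ^ m') := (div_mul_cancel₀ _ hα0).symm
      rw [h3, map_mul, hη', h]
    rw [Ne, pow_fix_iff hζ hα ha] at h2
    set c := kc hζ hα ha σ with hc
    have h3 : ¬ r ∣ c.val := by
      rintro ⟨t, ht⟩
      apply h2
      have h4 : ((r ^ m' : ℕ) : ZMod (r ^ (m' + 1))) * c = ((r ^ (m' + 1) * t : ℕ) : ZMod (r ^ (m' + 1))) := by
        rw [← ZMod.natCast_zmod_val c, ht]
        push_cast
        ring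
      rw [h4, ZMod.natCast_eq_zero_iff]
      exact dvd_mul_right _ _
    rw [← ZMod.natCast_zmod_val c, ZMod.isUnit_iff_coprime]
    exact Nat.Coprime.pow_right _ (((Nat.Prime.coprime_iff_not_dvd hr).mpr h3).symm)

/-- the criterion -/
theorem mem_cset_iff (hr : r.Prime) (ha : a ≠ 0) {m k : ℕ} (hk : k ≤ m) [NeZero (r ^ m)]
    {ζ α : Qbar} (hζ : IsPrimitiveRoot ζ (r ^ m)) (hα : α ^ (r ^ m) = a)
    {A : ValuationSubring Qbar} {p : ℕ} (hp : p.Prime) (hA : A.LiesOverPrime p) {σ : GQ}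
    (hσ : A.IsFrobeniusAt σ p) (hpr : p ≠ r) (hpa : ¬ (p : ℤ) ∣ a) :
    aff hζ hα ha σ ∈ cset r m k ↔ Spl a r m k p := by
  have hcop : p.Coprime r := (Nat.coprime_primes hp hr).mpr hpr
  have hcyc : ((cyc hζ σ : (ZMod (r ^ m))ˣ) : ZMod (r ^ m)) = p :=
    cyc_frob hζ hA hσ (hcop.pow_right m)
  have hone : cyc hζ σ = 1 ↔ r ^ m ∣ p - 1 := by
    rw [← Units.val_inj, hcyc, Units.val_one, ← ZMod.natCast_eq_zero_iff,
      Nat.cast_sub hp.one_le, Nat.cast_one, sub_eq_zero]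
  rw [cset, Set.mem_ofPred_eq, aff_u, aff_c, hone, Spl]
  refine and_congr_right fun hdvd => ?_
  rw [← pow_fix_iff hζ hα ha, frob_fix_iff hp hA hσ (pow_ne_zero k hr.ne_zero)
    (hcop.pow_right k) ((pow_dvd_pow r hk).trans hdvd) hpa]
  rw [← pow_mul, ← pow_add, Nat.sub_add_cancel hk, hα]

open Classical in
/-- **The density.** -/
theorem hasMean_spl (hr : r.Prime) (hg : Gen a r) (ha : a ≠ 0) {m k : ℕ} (hk : k ≤ m) :
    HasMean (fun p => if Spl a r m k p then (1 : ℝ) else 0)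
      (1 / (((r ^ m).totient : ℝ) * (r : ℝ) ^ k)) := by
  have hN : NeZero (r ^ m) := ⟨pow_ne_zero _ hr.ne_zero⟩
  have hN' : NeZero ((r ^ m : ℕ) : Qbar) := ⟨Nat.cast_ne_zero.mpr (pow_ne_zero _ hr.ne_zero)⟩
  obtain ⟨ζ, hζ⟩ := HasEnoughRootsOfUnity.exists_primitiveRoot Qbar (r ^ m)
  obtain ⟨α, hα⟩ := IsAlgClosed.exists_pow_nat_eq ((a : ℤ) : Qbar) (NeZero.pos (r ^ m))
  have hsurj := aff_surjective_of_gen hr hg ha hζ hα
  have hlevel : ∃ L : IntermediateField ℚ Qbar, FiniteDimensional ℚ L ∧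
      ∀ σ : GQ, (∀ x ∈ L, σ x = x) → aff hζ hα ha σ = 1 := by
    refine ⟨IntermediateField.adjoin ℚ {ζ, α},
      IntermediateField.finiteDimensional_adjoin fun x _ => Algebra.IsIntegral.isIntegral x,
      fun σ hσ => (aff_eq_one_iff hζ hα ha σ).mpr ⟨hσ _ (IntermediateField.subset_adjoin _ _
        (by simp)), hσ _ (IntermediateField.subset_adjoin _ _ (by simp))⟩⟩
  have : Fintype (Aff (r ^ m)) := Fintype.ofFinite _
  have hmean := hasMean_class (r := aff hζ hα ha) (fun g => hasMean_NC hsurj hlevel g)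
    (f := fun g => if g ∈ cset r m k then (1 : ℝ) else 0) (fun x g => by
      simp only [conj_mem_cset])
  have hval : (∑ g : Aff (r ^ m), if g ∈ cset r m k then (1 : ℝ) else 0) / Nat.card (Aff (r ^ m)) =
      1 / (((r ^ m).totient : ℝ) * (r : ℝ) ^ k) := by
    have h1 : (∑ g : Aff (r ^ m), if g ∈ cset r m k then (1 : ℝ) else 0) =
        (Nat.card (cset r m k) : ℝ) := by
      rw [Finset.sum_boole, Nat.card_eq_fintype_card, ← Set.toFinset_card]
      congr 2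
      ext g
      simp
    have hr0 : (r : ℝ) ≠ 0 := by exact_mod_cast hr.ne_zero
    have h2 : (((r ^ m).totient : ℕ) : ℝ) ≠ 0 := by
      exact_mod_cast (Nat.totient_pos.mpr (NeZero.pos (r ^ m))).ne'
    rw [h1, card_cset hr.ne_zero hk, card_aff]
    push_cast
    rw [div_eq_div_iff (mul_ne_zero (pow_ne_zero _ hr0) h2) (mul_ne_zero h2 (pow_ne_zero _ hr0)),
      one_mul, mul_left_comm, ← pow_add, Nat.sub_add_cancel hk, mul_comm]
  rw [hval] at hmean
  refine hmean.congr (insert r a.natAbs.primeFactors) fun p hp hpS => ?_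
  rw [Finset.mem_insert, not_or, Nat.mem_primeFactors] at hpS
  have hpa : ¬ (p : ℤ) ∣ a := fun h => hpS.2 ⟨hp, Int.natCast_dvd.mp h, Int.natAbs_ne_zero.mpr ha⟩
  obtain ⟨A, hA, hσ⟩ := exists_frob_place hp
  simp only [mem_cset_iff hr ha hk hζ hα hp hA hσ hpS.1 hpa]

end

end Fermat.Agent.Cor.Ord
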