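import Fermat.Agent.Corollaries.Art.Crit
import Fermat.Agent.Corollaries.Cheb.NatMain

/-!
# Splitting in `ℚ(ζ_{r^m}, a^{1/r^k})`

`Spl a r m k p` : `r ^ m ∣ p - 1` and `a ^ ((p - 1) / r ^ k) = 1` in `ℤ/p`. If `a` is generic for `r`
(`Gen a r`) these primes have natural density `1 / (φ(r ^ m) r ^ k)` (`k ≤ m`).
-/

set_option autoImplicit false

open NumberField Filter Topology
open Fermat.Agent.Frob Fermat.Agent.FrobDensity Fermat.Agent.Cor.Cheb Fermat.Agent.Cor.Art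

namespace Fermat.Agent.Cor.Ord

local notation "Qbar" => AlgebraicClosure ℚ

/-- `p` splits completely in `ℚ(ζ_{r^m}, a^{1/r^k})` (for `p ∤ a r`, `k ≤ m`) -/
def Spl (a : ℤ) (r m k p : ℕ) : Prop := r ^ m ∣ p - 1 ∧ ((a : ℤ) : ZMod p) ^ ((p - 1) / r ^ k) = 1

/-- Frobenius elements and `n`-th roots of `a` -/
theorem frob_fix_iff {a : ℤ} {A : ValuationSubring Qbar} {p : ℕ} (hp : p.Prime)
    (hA : A.LiesOverPrime p) {σ : GQ} (hσ : A.IsFrobeniusAt σ p) {n : ℕ} (hn : n ≠ 0)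
    (hpn : p.Coprime n) (hdvd : n ∣ p - 1) (hpa : ¬ (p : ℤ) ∣ a) {α : Qbar} (hα : α ^ n = a) :
    σ α = α ↔ ((a : ℤ) : ZMod p) ^ ((p - 1) / n) = 1 := by
  have hchar : CharP (IsLocalRing.ResidueField A) p := charP_residue hp hA
  have hαint : IsIntegral ℤ α := by
    refine IsIntegral.of_pow (Nat.pos_of_ne_zero hn) ?_
    rw [hα]
    exact isIntegral_intCast a
  set β : IsLocalRing.ResidueField A := redA A ⟨α, hαint⟩ with hβ
  have hβq : β ^ n = ((a : ℤ) : IsLocalRing.ResidueField A) := by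
    rw [hβ, ← map_pow, ← map_intCast (redA A) a]
    congr 1
    exact Subtype.ext (by simpa using hα)
  have ha0 : ((a : ℤ) : IsLocalRing.ResidueField A) ≠ 0 := by
    rw [Ne, CharP.intCast_eq_zero_iff (IsLocalRing.ResidueField A) p]
    exact hpa
  have hβ0 : β ≠ 0 := by
    intro h
    rw [h, zero_pow hn] at hβq
    exact ha0 hβq.symm
  have hfrob : redA A (σ • (⟨α, hαint⟩ : Zbar)) = β ^ p := redA_frob hσ _
  have hpow : ((a : ℤ) : IsLocalRing.ResidueField A) ^ ((p - 1) / n) = β ^ (p - 1) := by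
    rw [← hβq, ← pow_mul, Nat.mul_div_cancel' hdvd]
  rw [← intCast_pow_eq_one_iff hp hA, hpow]
  have hp1 : β ^ (p - 1) = 1 ↔ β ^ p = β := by
    constructor
    · intro h
      conv_lhs => rw [← Nat.sub_add_cancel hp.one_le]
      rw [pow_succ, h, one_mul]
    · intro h
      have h1 : β ^ (p - 1) * β = 1 * β := by
        rw [← pow_succ, Nat.sub_add_cancel hp.one_le, h, one_mul]
      exact mul_right_cancel₀ hβ0 h1
  rw [hp1, ← hfrob]
  constructor
  · intro h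
    rw [hβ]
    congr 1
    exact Subtype.ext h
  · intro h
    have ha : a ≠ 0 := fun h0 => hpa (h0 ▸ dvd_zero _)
    have hne : NeZero n := ⟨hn⟩
    have hne' : NeZero ((n : ℕ) : Qbar) := ⟨Nat.cast_ne_zero.mpr hn⟩
    obtain ⟨ζ, hζ⟩ := HasEnoughRootsOfUnity.exists_primitiveRoot Qbar n
    have hc := kc_spec hζ hα ha σ
    set c := (kc hζ hα ha σ).val with hcdef
    have hζint : IsIntegral ℤ (ζ ^ c) := (hζ.isIntegral (Nat.pos_of_ne_zero hn)).pow c
    have h1 : σ • (⟨α, hαint⟩ : Zbar) = ⟨ζ ^ c, hζint⟩ * ⟨α, hαint⟩ := Subtype.ext hc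
    rw [h1, map_mul, ← hβ] at h
    have h2 : redA A ⟨ζ ^ c, hζint⟩ = 1 := mul_right_cancel₀ hβ0 (by rw [h, one_mul])
    have h3 : toVal A ⟨ζ ^ c, hζint⟩ = 1 := by
      refine GalRep.eq_one_of_residue_eq_one hA hpn ?_ h2
      refine Subtype.ext ?_
      change (ζ ^ c) ^ n = 1
      rw [← pow_mul, mul_comm, pow_mul, hζ.pow_eq_one, one_pow]
    have h4 : ζ ^ c = 1 := congrArg Subtype.val h3
    rw [hc, h4, one_mul]

section

variable {q : ℕ} [NeZero q] {ζ α : Qbar} (hζ : IsPrimitiveRoot ζ q) {a : ℤ} (hα : α ^ q = a)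
  (ha : a ≠ 0)

/-- the cyclotomic character is surjective -/
theorem cyc_surjective : Function.Surjective (cyc hζ) := by
  intro u
  have hη : IsPrimitiveRoot (ζ ^ ((u : (ZMod q)ˣ) : ZMod q).val) q :=
    hζ.pow_of_coprime _ (ZMod.val_coe_unit_coprime u)
  have h1 : IsConjRoot ℚ (ζ ^ ((u : (ZMod q)ˣ) : ZMod q).val) ζ := by
    rw [IsConjRoot, ← Polynomial.cyclotomic_eq_minpoly_rat hη (NeZero.pos q),
      ← Polynomial.cyclotomic_eq_minpoly_rat hζ (NeZero.pos q)]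
  obtain ⟨σ, hσ⟩ := isConjRoot_iff_exists_algEquiv.mp h1
  refine ⟨σ, ?_⟩
  apply Units.ext
  rw [cyc_eq_of_pow hζ hσ, ZMod.natCast_zmod_val]

/-- a power of the root is fixed iff a multiple of the cocycle vanishes -/
lemma pow_fix_iff (σ : GQ) (d : ℕ) :
    σ (α ^ d) = α ^ d ↔ (d : ZMod q) * kc hζ hα ha σ = 0 := by
  have hα0 := alpha_ne_zero hα ha (NeZero.ne q)
  rw [map_pow, kc_spec hζ hα ha σ, mul_pow, ← pow_mul]
  have h1 : (ζ ^ ((kc hζ hα ha σ).val * d) * α ^ d = α ^ d) ↔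
      ζ ^ ((kc hζ hα ha σ).val * d) = 1 := by
    constructor
    · intro h
      exact mul_right_cancel₀ (pow_ne_zero d hα0) (by rw [h, one_mul])
    · intro h
      rw [h, one_mul]
  rw [h1, hζ.pow_eq_one_iff_dvd, ← ZMod.natCast_eq_zero_iff]
  push_cast
  rw [ZMod.natCast_zmod_val, mul_comm]

/-- if a translation by a unit is in the image, `aff` is surjective -/
theorem aff_surjective {σ : GQ} (h1 : cyc hζ σ = 1) (h2 : IsUnit (kc hζ hα ha σ)) :
    Function.Surjective (aff hζ hα ha) := by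
  intro x
  obtain ⟨τ, hτ⟩ := cyc_surjective hζ x.u
  obtain ⟨v, hv⟩ := h2
  have h3 : aff hζ hα ha σ = ⟨kc hζ hα ha σ, 1⟩ := by
    ext
    · rfl
    · exact congrArg Units.val h1
  set n : ℕ := ((x.c - kc hζ hα ha τ) * ((v⁻¹ : (ZMod q)ˣ) : ZMod q)).val with hn
  refine ⟨σ ^ n * τ, ?_⟩
  rw [map_mul, map_pow, h3, Aff.translation_pow]
  ext
  · rw [Aff.mul_c, Units.val_one, one_mul, aff_c, hn, ZMod.natCast_zmod_val, ← hv, mul_assoc,
      Units.inv_mul, mul_one, sub_add_cancel]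
  · rw [Aff.mul_u, one_mul, aff_u, hτ]

end

end Fermat.Agent.Cor.Ord
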