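import Fermat.Agent.Corollaries.Ord.Main

/-!
# Hasse's density theorem: final forms

* `density_dvd_order_odd` : `r` an odd prime, `a` not an `r`-th power: the primes `p` with `r ∣ ord_p(a)`
  have natural density `r / (r² - 1)`.
* `density_dvd_order_two` : the same for `r = 2` if some odd prime has odd exponent in `a`: `2 / 3`.
* `density_dvd_pow_add_one` : for such `a` the prime divisors of the numbers `aⁿ + 1` have natural
  density `2 / 3`.
-/

set_option autoImplicit false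

open NumberField Filter Topology
open Fermat.Agent.Frob Fermat.Agent.FrobDensity Fermat.Agent.Cor.Cheb Fermat.Agent.Cor.Art

namespace Fermat.Agent.Cor.Ord

local notation "Qbar" => AlgebraicClosure ℚ

/-- mean values of indicators are natural densities -/
lemma tendsto_ratio {P : ℕ → Prop} [DecidablePred P] {c : ℝ} (h : HasMean (fun p => if P p then (1 : ℝ) else 0) c) :
    Tendsto (fun x : ℕ => (((Finset.range (x + 1)).filter fun p : ℕ => p.Prime ∧ P p).card : ℝ) /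
      Nat.primeCounting x) atTop (𝓝 c) := by
  have h2 := Tendsto.div h prime_number_theorem one_ne_zero
  rw [div_one] at h2
  refine h2.congr' ?_
  filter_upwards [eventually_gt_atTop 1] with x hx
  have hx0 : (0 : ℝ) < x := by exact_mod_cast (by omega : 0 < x)
  have hl : 0 < Real.log (x : ℝ) := Real.log_pos (by exact_mod_cast hx)
  have h3 : ∑ p ∈ primesTo x, (if P p then (1 : ℝ) else 0) =
      (((Finset.range (x + 1)).filter fun p : ℕ => p.Prime ∧ P p).card : ℝ) := by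
    rw [Finset.sum_boole, primesTo, Finset.filter_filter]
  simp only [Pi.div_apply]
  rw [h3]
  rcases eq_or_ne (Nat.primeCounting x : ℝ) 0 with h0 | h0
  · simp only [h0, zero_mul, zero_div, div_zero]
  · field_simp

/-- an odd prime `r` is generic for every `a` which is not an `r`-th power -/
theorem gen_of_odd {a : ℤ} {r : ℕ} (hr : r.Prime) (hr2 : r ≠ 2) (ha : a ≠ 0)
    (hpow : ∀ b : ℚ, b ^ r ≠ a) : Gen a r := by
  intro m
  have h1 : NeZero r := ⟨hr.ne_zero⟩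
  have h2 : NeZero ((r : ℕ) : Qbar) := ⟨Nat.cast_ne_zero.mpr hr.ne_zero⟩
  have h3 : NeZero (r ^ m) := ⟨pow_ne_zero _ hr.ne_zero⟩
  have h4 : NeZero ((r ^ m : ℕ) : Qbar) := ⟨Nat.cast_ne_zero.mpr (pow_ne_zero _ hr.ne_zero)⟩
  obtain ⟨ζ, hζ⟩ := HasEnoughRootsOfUnity.exists_primitiveRoot Qbar r
  obtain ⟨ξ, hξ⟩ := HasEnoughRootsOfUnity.exists_primitiveRoot Qbar (r ^ m)
  obtain ⟨α, hα⟩ := IsAlgClosed.exists_pow_nat_eq ((a : ℤ) : Qbar) hr.pos
  obtain ⟨σ, τ, h⟩ := exists_commutator hζ hα ha hr hr2 hpow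
  refine ⟨σ * τ * σ⁻¹ * τ⁻¹, fun z hz => ?_, α, hα, ?_⟩
  · have h5 := (cyc_eq_one_iff hξ _).mp (cyc_comm_eq_one hξ σ τ)
    obtain ⟨i, -, rfl⟩ := hξ.eq_pow_of_pow_eq_one hz
    rw [map_pow, h5]
  · rw [Ne, ← kc_eq_zero_iff hζ hα ha]
    exact h

lemma val_eq_one {ℓ : ℕ} (hℓ : ℓ.Prime) {A : ValuationSubring Qbar} (hA : A.LiesOverPrime ℓ)
    {b : ℤ} (hb : ¬ (ℓ : ℤ) ∣ b) : A.valuation (b : Qbar) = 1 := by
  refine le_antisymm (val_int_le A b) (not_lt.mp fun hlt => ?_)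
  have hcop : IsCoprime b (ℓ : ℤ) :=
    ((Prime.coprime_iff_not_dvd (Nat.prime_iff_prime_int.mp hℓ)).mpr hb).symm
  obtain ⟨u, v, huv⟩ := hcop
  have h1 : A.valuation (((ℓ : ℕ) : ℤ) : Qbar) < 1 := by
    have h : ((ℓ : ℕ) : Qbar) ∈ A.nonunits := hA
    rw [ValuationSubring.mem_nonunits_iff] at h
    exact_mod_cast h
  have h2 : A.valuation (((u * b + v * (ℓ : ℤ) : ℤ)) : Qbar) < 1 := by
    push_cast
    refine A.valuation.map_add_lt ?_ ?_
    · rw [map_mul, mul_comm]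
      exact mul_lt_one_of_lt_of_le hlt (val_int_le A u)
    · rw [map_mul, mul_comm]
      exact mul_lt_one_of_lt_of_le (by exact_mod_cast h1) (val_int_le A v)
  rw [huv, Int.cast_one, map_one] at h2
  exact lt_irrefl _ h2

/-- `2` is generic for `a` if some odd prime has odd exponent in `a` -/
theorem gen_two {a b : ℤ} {ℓ e : ℕ} (hℓ : ℓ.Prime) (hℓ2 : ℓ ≠ 2) (hab : a = (ℓ : ℤ) ^ e * b)
    (he : Odd e) (hb : ¬ (ℓ : ℤ) ∣ b) : Gen a 2 := by
  intro m
  obtain ⟨A, hA, -⟩ := Frob.exists_frobenius ℓ hℓ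
  have hb0 : b ≠ 0 := fun h => hb (h ▸ dvd_zero _)
  have ha0 : a ≠ 0 := by
    rw [hab]
    exact mul_ne_zero (pow_ne_zero _ (by exact_mod_cast hℓ.ne_zero)) hb0
  obtain ⟨α, hα⟩ := IsAlgClosed.exists_pow_nat_eq ((a : ℤ) : Qbar) (n := 2) (by norm_num)
  have hα0 : α ≠ 0 := alpha_ne_zero hα ha0 (by norm_num)
  by_contra hcon
  have hfix : ∀ σ ∈ A.inertiaSubgroupIn ℚ, σ α = α := by
    intro σ hσ
    by_contra hne
    refine hcon ⟨σ, fun z hz => ?_, α, hα, hne⟩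
    exact GalRep.inertia_fix_rootOfUnity hA
      (Nat.Coprime.pow_right _ ((Nat.coprime_primes hℓ Nat.prime_two).mpr hℓ2))
      (pow_ne_zero _ two_ne_zero) hσ hz
  obtain ⟨n, hn⟩ := TW.exists_valuation_eq_zpow_of_fixed hℓ hA hfix hα0
  have hpos : 0 < A.valuation ((ℓ : ℕ) : Qbar) :=
    zero_lt_iff.mpr ((Valuation.ne_zero_iff _).mpr (Nat.cast_ne_zero.mpr hℓ.ne_zero))
  have hlt : A.valuation ((ℓ : ℕ) : Qbar) < 1 := by
    have h : ((ℓ : ℕ) : Qbar) ∈ A.nonunits := hA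
    rwa [ValuationSubring.mem_nonunits_iff] at h
  have h5 : A.valuation (α ^ 2) = A.valuation ((ℓ : ℕ) : Qbar) ^ e := by
    rw [hα, hab]
    push_cast
    rw [map_mul, map_pow, val_eq_one hℓ hA hb, mul_one]
  rw [map_pow, hn, ← zpow_natCast, ← zpow_mul, ← zpow_natCast] at h5
  have h6 := (zpow_right_strictAnti₀ hpos hlt).injective h5
  obtain ⟨t, ht⟩ := he
  push_cast at h6
  omega

open Classical in
/-- **Hasse's density theorem** (1965), odd primes `r`. -/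
theorem density_dvd_order_odd {a : ℤ} {r : ℕ} (hr : r.Prime) (hr2 : r ≠ 2) (ha : a ≠ 0)
    (hpow : ∀ b : ℚ, b ^ r ≠ a) :
    Tendsto (fun x : ℕ => (((Finset.range (x + 1)).filter fun p : ℕ =>
      p.Prime ∧ r ∣ orderOf ((a : ℤ) : ZMod p)).card : ℝ) / Nat.primeCounting x) atTop
      (𝓝 ((r : ℝ) / ((r : ℝ) ^ 2 - 1))) :=
  tendsto_ratio (hasMean_dvd_order hr (gen_of_odd hr hr2 ha hpow) ha)

open Classical in
/-- **Hasse's density theorem** (1966), `r = 2`. -/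
theorem density_dvd_order_two {a b : ℤ} {ℓ e : ℕ} (hℓ : ℓ.Prime) (hℓ2 : ℓ ≠ 2)
    (hab : a = (ℓ : ℤ) ^ e * b) (he : Odd e) (hb : ¬ (ℓ : ℤ) ∣ b) :
    Tendsto (fun x : ℕ => (((Finset.range (x + 1)).filter fun p : ℕ =>
      p.Prime ∧ 2 ∣ orderOf ((a : ℤ) : ZMod p)).card : ℝ) / Nat.primeCounting x) atTop
      (𝓝 (2 / 3)) := by
  have ha0 : a ≠ 0 := by
    rw [hab]
    exact mul_ne_zero (pow_ne_zero _ (by exact_mod_cast hℓ.ne_zero)) fun h => hb (h ▸ dvd_zero _)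
  have h := tendsto_ratio (hasMean_dvd_order Nat.prime_two (gen_two hℓ hℓ2 hab he hb) ha0)
  have h1 : ((2 : ℕ) : ℝ) / (((2 : ℕ) : ℝ) ^ 2 - 1) = 2 / 3 := by norm_num
  rwa [h1] at h

/-- For odd `p ∤ a`: `p` divides some `aⁿ + 1` iff the order of `a` modulo `p` is even. -/
theorem exists_dvd_pow_add_one_iff {a : ℤ} {p : ℕ} (hp : p.Prime) (hp2 : p ≠ 2)
    (hpa : ¬ (p : ℤ) ∣ a) : (∃ n : ℕ, (p : ℤ) ∣ a ^ n + 1) ↔ 2 ∣ orderOf ((a : ℤ) : ZMod p) := by
  have hF : Fact p.Prime := ⟨hp⟩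
  have hne : (-1 : ZMod p) ≠ 1 := by
    intro h
    have h1 : ((2 : ℕ) : ZMod p) = 0 := by
      push_cast
      linear_combination -h
    rw [ZMod.natCast_eq_zero_iff] at h1
    exact hp2 ((Nat.prime_dvd_prime_iff_eq hp Nat.prime_two).mp h1)
  have hiff : ∀ n : ℕ, (p : ℤ) ∣ a ^ n + 1 ↔ ((a : ℤ) : ZMod p) ^ n = -1 := by
    intro n
    rw [← ZMod.intCast_zmod_eq_zero_iff_dvd]
    push_cast
    exact ⟨fun h => by linear_combination h, fun h => by rw [h]; ring⟩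
  simp only [hiff]
  have hfin : 0 < orderOf ((a : ℤ) : ZMod p) :=
    orderOf_pos_iff.mpr (isOfFinOrder_iff_pow_eq_one.mpr
      ⟨p - 1, by have := hp.two_le; omega, pow_card_eq_one hp hpa⟩)
  constructor
  · rintro ⟨n, hn⟩
    by_contra hodd
    have h1 : Odd (orderOf ((a : ℤ) : ZMod p)) := by
      rw [← Nat.not_even_iff_odd, even_iff_two_dvd]
      exact hodd
    have h2 : (((a : ℤ) : ZMod p) ^ n) ^ orderOf ((a : ℤ) : ZMod p) = 1 := by
      rw [← pow_mul, mul_comm, pow_mul, pow_orderOf_eq_one, one_pow]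
    rw [hn, h1.neg_one_pow] at h2
    exact hne h2
  · rintro ⟨t, ht⟩
    refine ⟨t, ?_⟩
    have h1 : (((a : ℤ) : ZMod p) ^ t) ^ 2 = 1 := by
      rw [← pow_mul, mul_comm, ← ht, pow_orderOf_eq_one]
    have h1' : (((a : ℤ) : ZMod p) ^ t - 1) * (((a : ℤ) : ZMod p) ^ t + 1) = 0 := by
      linear_combination h1
    rcases mul_eq_zero.mp h1' with h2 | h2
    · exfalso
      have h3 := orderOf_dvd_of_pow_eq_one (sub_eq_zero.mp h2)
      have h4 := Nat.le_of_dvd (by omega) h3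
      omega
    · exact eq_neg_of_add_eq_zero_left h2

open Classical in
/-- **Prime divisors of `aⁿ + 1`** (Hasse 1966): natural density `2 / 3`. -/
theorem density_dvd_pow_add_one {a b : ℤ} {ℓ e : ℕ} (hℓ : ℓ.Prime) (hℓ2 : ℓ ≠ 2)
    (hab : a = (ℓ : ℤ) ^ e * b) (he : Odd e) (hb : ¬ (ℓ : ℤ) ∣ b) :
    Tendsto (fun x : ℕ => (((Finset.range (x + 1)).filter fun p : ℕ =>
      p.Prime ∧ ∃ n : ℕ, (p : ℤ) ∣ a ^ n + 1).card : ℝ) / Nat.primeCounting x) atTop
      (𝓝 (2 / 3)) := by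
  have ha0 : a ≠ 0 := by
    rw [hab]
    exact mul_ne_zero (pow_ne_zero _ (by exact_mod_cast hℓ.ne_zero)) fun h => hb (h ▸ dvd_zero _)
  have h := hasMean_dvd_order Nat.prime_two (gen_two hℓ hℓ2 hab he hb) ha0
  have h1 : ((2 : ℕ) : ℝ) / (((2 : ℕ) : ℝ) ^ 2 - 1) = 2 / 3 := by norm_num
  rw [h1] at h
  refine tendsto_ratio (h.congr (insert 2 a.natAbs.primeFactors) fun p hp hpS => ?_)
  rw [Finset.mem_insert, not_or, Nat.mem_primeFactors] at hpS
  have hpa : ¬ (p : ℤ) ∣ a := fun h => hpS.2 ⟨hp, Int.natCast_dvd.mp h, Int.natAbs_ne_zero.mpr ha0⟩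
  simp only [exists_dvd_pow_add_one_iff hp hpS.1 hpa]

open Classical in
/-- The prime divisors of the numbers `10ⁿ + 1` have natural density `2 / 3`. -/
theorem density_ten : Tendsto (fun x : ℕ => (((Finset.range (x + 1)).filter fun p : ℕ =>
      p.Prime ∧ ∃ n : ℕ, (p : ℤ) ∣ 10 ^ n + 1).card : ℝ) / Nat.primeCounting x) atTop
      (𝓝 (2 / 3)) :=
  density_dvd_pow_add_one (a := 10) (b := 2) (ℓ := 5) (e := 1) (by norm_num) (by norm_num)
    (by norm_num) odd_one (by norm_num)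

end Fermat.Agent.Cor.Ord
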