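import Fermat.Agent.Corollaries.Ord.Lucas

/-!
# Lagarias' theorem

The primes which divide some Lucas number have natural density `2/3`.
-/

set_option autoImplicit false

open NumberField Filter Topology
open Fermat.Agent.Frob Fermat.Agent.FrobDensity Fermat.Agent.Cor.Cheb Fermat.Agent.Cor.Art

namespace Fermat.Agent.Cor.Ord

local notation "Qbar" => AlgebraicClosure ℚ

/-- a place over `p` for which `frob p` is a Frobenius element -/
noncomputable def plc (p : ℕ) (hp : p.Prime) : ValuationSubring Qbar := (exists_frob_place hp).choose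

lemma plc_lies {p : ℕ} (hp : p.Prime) : (plc p hp).LiesOverPrime p :=
  (exists_frob_place hp).choose_spec.1

lemma plc_frob {p : ℕ} (hp : p.Prime) : (plc p hp).IsFrobeniusAt (frob p) p :=
  (exists_frob_place hp).choose_spec.2

section

variable {s : Qbar} (hs : s ^ 2 = 5)

/-- `p` splits completely in `ℚ(√5, ζ_{2^m}, θ^{1/2^k})` -/
def LSpl (m k p : ℕ) : Prop := sgn hs (frob p) = 1 ∧ 2 ^ m ∣ p - 1 ∧
  ∃ hp : p.Prime, xA hs (plc p hp) ^ ((p - 1) / 2 ^ k) = 1

/-- the criterion -/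
theorem mem_dset_iff {m k : ℕ} (hk : k ≤ m) [NeZero (2 ^ m)] {ζ β : Qbar}
    (hζ : IsPrimitiveRoot ζ (2 ^ m)) (hβ : β ^ (2 ^ m) = theta s) {p : ℕ} (hp : p.Prime)
    (hp2 : p ≠ 2) : daff hζ hs hβ (frob p) ∈ dset m k ↔ LSpl hs m k p := by
  have hcop : p.Coprime 2 := (Nat.coprime_primes hp Nat.prime_two).mpr hp2
  have hcyc : ((cyc hζ (frob p) : (ZMod (2 ^ m))ˣ) : ZMod (2 ^ m)) = p :=
    cyc_frob hζ (plc_lies hp) (plc_frob hp) (hcop.pow_right m)
  have hone : cyc hζ (frob p) = 1 ↔ 2 ^ m ∣ p - 1 := by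
    rw [← Units.val_inj, hcyc, Units.val_one, ← ZMod.natCast_eq_zero_iff,
      Nat.cast_sub hp.one_le, Nat.cast_one, sub_eq_zero]
  rw [dset, Set.mem_ofPred_eq, daff_u, daff_c, daff_e, hone, LSpl, and_left_comm]
  refine and_congr_right fun he => and_congr_right fun hdvd => ?_
  have ht : redA (plc p hp) (-(goldZ hs) ^ 2) = xA hs (plc p hp) := by
    rw [map_neg, map_pow]
    rfl
  have hx0 : xA hs (plc p hp) ≠ 0 := neg_ne_zero.mpr (pow_ne_zero 2 (gA_ne hs _))
  have htheta : ((-(goldZ hs) ^ 2 : Zbar) : Qbar) = theta s := rfl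
  have hfix : (frob p) (((-(goldZ hs) ^ 2 : Zbar) : Qbar)) = ((-(goldZ hs) ^ 2 : Zbar) : Qbar) := by
    rw [htheta, map_theta hs, he, Units.val_one, zpow_one]
  have hγ : (β ^ (2 ^ (m - k))) ^ (2 ^ k) = ((-(goldZ hs) ^ 2 : Zbar) : Qbar) := by
    rw [← pow_mul, ← pow_add, Nat.sub_add_cancel hk, hβ, htheta]
  rw [← beta_pow_fix_iff hζ hs hβ he, frob_fix_iff_unit hp (plc_lies hp) (plc_frob hp)
    (pow_ne_zero k two_ne_zero) (hcop.pow_right k) ((pow_dvd_pow 2 hk).trans hdvd)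
    (by rw [ht]; exact hx0) hfix hγ, ht]
  exact ⟨fun h => ⟨hp, h⟩, fun h => h.2⟩

open Classical in
theorem hasMean_LSpl {m k : ℕ} (hm : 2 ≤ m) (hk1 : 1 ≤ k) (hk : k ≤ m) :
    HasMean (fun p => if LSpl hs m k p then (1 : ℝ) else 0)
      (1 / (((2 ^ m).totient : ℝ) * (2 : ℝ) ^ k)) := by
  have hN : NeZero (2 ^ m) := ⟨by positivity⟩
  have hN' : NeZero ((2 ^ m : ℕ) : Qbar) := ⟨Nat.cast_ne_zero.mpr (by positivity)⟩
  obtain ⟨ζ, hζ⟩ := HasEnoughRootsOfUnity.exists_primitiveRoot Qbar (2 ^ m)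
  obtain ⟨β, hβ⟩ := IsAlgClosed.exists_pow_nat_eq (theta s) (NeZero.pos (2 ^ m))
  refine (hasMean_dset hm hζ hs hβ hk1 hk).congr {2} fun p hp hpS => ?_
  rw [Finset.mem_singleton] at hpS
  simp only [mem_dset_iff hs hk hζ hβ hp hpS]

open Classical in
lemma hasMean_LSpl_piece {j : ℕ} (hj : 2 ≤ j) :
    HasMean (fun p => (if LSpl hs j j p then (1 : ℝ) else 0) -
      (if LSpl hs (j + 1) j p then (1 : ℝ) else 0)) (piece 2 j) := by
  have h1 := (hasMean_LSpl hs hj (by omega) (le_refl j)).add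
    ((hasMean_LSpl hs (show 2 ≤ j + 1 by omega) (by omega) (Nat.le_succ j)).const_mul (-1))
  have h2 : (fun p => (if LSpl hs j j p then (1 : ℝ) else 0) +
      (-1) * (if LSpl hs (j + 1) j p then (1 : ℝ) else 0)) = fun p =>
      (if LSpl hs j j p then (1 : ℝ) else 0) -
      (if LSpl hs (j + 1) j p then (1 : ℝ) else 0) := by
    funext p
    ring
  have h3 : 1 / (((2 ^ j).totient : ℝ) * (2 : ℝ) ^ j) +
      (-1) * (1 / (((2 ^ (j + 1)).totient : ℝ) * (2 : ℝ) ^ j)) = piece 2 j := by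
    rw [piece]
    push_cast
    ring
  rw [h2, h3] at h1
  exact h1

open Classical in
/-- the indicator of `2 ^ j ∥ p - 1`, `θ ^ ((p - 1) / 2 ^ j) = 1` -/
lemma LSpl_sub {p : ℕ} (hp : p.Prime) (hp2 : p ≠ 2) (he : sgn hs (frob p) = 1) (j : ℕ) :
    (if LSpl hs j j p then (1 : ℝ) else 0) - (if LSpl hs (j + 1) j p then (1 : ℝ) else 0) =
      if j = padicValNat 2 (p - 1) then
        (if 2 ∣ orderOf (xA hs (plc p hp)) then (0 : ℝ) else 1) else 0 := by
  have hp1 : p - 1 ≠ 0 := by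
    have := hp.two_le
    omega
  have hodd : p % 2 = 1 := hp.eq_two_or_odd.resolve_left hp2
  have hspl : ∀ m k : ℕ, LSpl hs m k p ↔ m ≤ padicValNat 2 (p - 1) ∧
      xA hs (plc p hp) ^ ((p - 1) / 2 ^ k) = 1 := by
    intro m k
    rw [LSpl, padicValNat_dvd_iff_le hp1]
    exact ⟨fun h => ⟨h.2.1, h.2.2.2⟩, fun h => ⟨he, h.1, hp, h.2⟩⟩
  have hx : xA hs (plc p hp) ^ (p - 1) = 1 := by
    have h1 : p - 1 = (p - 1) / 2 * 2 := by omega
    rw [h1, pow_mul, xA_pow_of_one hs hp hp2 (plc_frob hp) he, ← pow_mul, mul_comm, pow_mul,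
      neg_one_sq, one_pow]
  rcases lt_trichotomy j (padicValNat 2 (p - 1)) with h | h | h
  · rw [if_neg h.ne]
    have h1 : LSpl hs j j p ↔ LSpl hs (j + 1) j p := by
      rw [hspl, hspl]
      exact and_congr_left fun _ => ⟨fun _ => h, fun _ => h.le⟩
    simp only [h1, sub_self]
  · rw [if_pos h]
    have h2 := not_two_dvd_orderOf_iff hp1 hx
    rw [← h] at h2
    have h3 : ¬ LSpl hs (j + 1) j p := by
      rw [hspl]
      rintro ⟨h4, -⟩
      omega
    rw [if_neg h3, sub_zero]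
    have h4 : LSpl hs j j p ↔ ¬ 2 ∣ orderOf (xA hs (plc p hp)) := by
      rw [h2, hspl]
      exact ⟨fun h => h.2, fun h' => ⟨h.le, h'⟩⟩
    simp only [h4, ite_not]
  · rw [if_neg h.ne']
    have h3 : ¬ LSpl hs j j p := by
      rw [hspl]
      rintro ⟨h4, -⟩
      omega
    have h4 : ¬ LSpl hs (j + 1) j p := by
      rw [hspl]
      rintro ⟨h4, -⟩
      omega
    rw [if_neg h3, if_neg h4, sub_self]

/-- the order of `θ` is even iff `p` divides a Lucas number -/
lemma exists_dvd_lucasNum_iff {p : ℕ} (hp : p.Prime) (hp2 : p ≠ 2) :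
    (∃ n : ℕ, p ∣ lucasNum n) ↔ 2 ∣ orderOf (xA hs (plc p hp)) := by
  have hodd : p % 2 = 1 := hp.eq_two_or_odd.resolve_left hp2
  simp only [dvd_lucasNum_iff hs hp (plc_lies hp)]
  refine exists_pow_eq_neg_one_iff (neg_one_ne hp hp2 (plc_lies hp)) ?_
  rw [orderOf_pos_iff, isOfFinOrder_iff_pow_eq_one]
  rcases Int.units_eq_one_or (sgn hs (frob p)) with he | he
  · refine ⟨(p - 1) / 2 * 2, by have := hp.two_le; omega, ?_⟩
    rw [pow_mul, xA_pow_of_one hs hp hp2 (plc_frob hp) he, ← pow_mul, mul_comm, pow_mul,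
      neg_one_sq, one_pow]
  · refine ⟨(p + 1) / 2 * 2, by omega, ?_⟩
    rw [pow_mul, xA_pow_of_neg hs hp hp2 (plc_frob hp) he, neg_sq, ← pow_mul, mul_comm, pow_mul,
      neg_one_sq, one_pow]

/-- inert primes `p ≡ 1 mod 4` do not divide Lucas numbers -/
lemma odd_of_inert_one {p : ℕ} (hp : p.Prime) (he : sgn hs (frob p) = -1) (h4 : p % 4 = 1) :
    ¬ 2 ∣ orderOf (xA hs (plc p hp)) := by
  have hp2 : p ≠ 2 := by omega
  have h1 := xA_pow_of_neg hs hp hp2 (plc_frob hp) he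
  have h2 : Odd ((p + 1) / 2) := by
    rw [Nat.odd_iff]
    omega
  rw [h2.neg_one_pow, neg_neg] at h1
  have h3 := orderOf_dvd_of_pow_eq_one h1
  intro h5
  have h6 := h5.trans h3
  rw [Nat.odd_iff] at h2
  omega

lemma even_of_pow {k : Type*} [Field k] {x : k} (hne : (-1 : k) ≠ 1) {n : ℕ} (h : x ^ n = -1) :
    2 ∣ orderOf x := by
  have hfin : 0 < orderOf x := by
    rw [orderOf_pos_iff, isOfFinOrder_iff_pow_eq_one]
    refine ⟨n * 2, ?_, by rw [pow_mul, h, neg_one_sq]⟩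
    rcases Nat.eq_zero_or_pos n with rfl | hn
    · rw [pow_zero] at h
      exact absurd h.symm hne
    · omega
  exact (exists_pow_eq_neg_one_iff hne hfin).mp ⟨n, h⟩

/-- all primes `p ≡ 3 mod 4` divide Lucas numbers -/
lemma even_of_three {p : ℕ} (hp : p.Prime) (h4 : p % 4 = 3) :
    2 ∣ orderOf (xA hs (plc p hp)) := by
  have hp2 : p ≠ 2 := by omega
  have hne := neg_one_ne hp hp2 (plc_lies hp)
  rcases Int.units_eq_one_or (sgn hs (frob p)) with he | he
  · have h1 := xA_pow_of_one hs hp hp2 (plc_frob hp) he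
    have h2 : Odd ((p - 1) / 2) := by
      rw [Nat.odd_iff]
      omega
    rw [h2.neg_one_pow] at h1
    exact even_of_pow hne h1
  · have h1 := xA_pow_of_neg hs hp hp2 (plc_frob hp) he
    have h2 : Even ((p + 1) / 2) := by
      rw [Nat.even_iff]
      omega
    rw [h2.neg_one_pow] at h1
    exact even_of_pow hne h1

end

/-- every prime `p ≡ 3 mod 4` divides a Lucas number -/
theorem exists_dvd_lucasNum_of_mod_four_eq_three {p : ℕ} (hp : p.Prime) (h4 : p % 4 = 3) :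
    ∃ n : ℕ, p ∣ lucasNum n := by
  obtain ⟨s, hs⟩ := IsAlgClosed.exists_pow_nat_eq (5 : Qbar) (n := 2) (by norm_num)
  exact (exists_dvd_lucasNum_iff hs hp (by omega)).mpr (even_of_three hs hp h4)

open Classical in
/-- the primes which divide no Lucas number, mean value form -/
theorem hasMean_not_dvd_lucasNum :
    HasMean (fun p => if ∃ n : ℕ, p ∣ lucasNum n then (0 : ℝ) else 1) (1 / 3) := by
  obtain ⟨s, hs⟩ := IsAlgClosed.exists_pow_nat_eq (5 : Qbar) (n := 2) (by norm_num)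
  have hN : NeZero ((2 ^ 2 : ℕ) : Qbar) := ⟨Nat.cast_ne_zero.mpr (by norm_num)⟩
  obtain ⟨ζ, hζ⟩ := HasEnoughRootsOfUnity.exists_primitiveRoot Qbar (2 ^ 2)
  have hlim : Tendsto (fun J : ℕ => 1 / 4 + ∑ j ∈ Finset.Ico 2 J, piece 2 j) atTop
      (𝓝 (1 / 3)) := by
    have h1 := tendsto_sum_piece Nat.prime_two
    have h2 : (1 : ℝ) / 3 = 1 / 4 + ((1 - ((2 : ℕ) : ℝ) / (((2 : ℕ) : ℝ) ^ 2 - 1)) - 1 / 4) := by
      norm_num
    rw [h2]
    refine Tendsto.congr' ?_ ((h1.sub_const (1 / 4)).const_add (1 / 4))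
    filter_upwards [eventually_ge_atTop 2] with J hJ
    have h3 : ∑ j ∈ Finset.range 2, piece 2 j = 1 / 4 := by
      rw [Finset.sum_range_succ, Finset.sum_range_succ, Finset.sum_range_zero,
        piece_zero Nat.prime_two, piece_succ Nat.prime_two]
      norm_num
    rw [Finset.sum_Ico_eq_sub _ hJ, h3]
  refine HasMean.squeeze fun ε hε => ?_
  have hlim2 := hlim.add (tendsto_tail Nat.prime_two)
  rw [add_zero] at hlim2
  obtain ⟨J, ⟨hJ1, hJ2⟩, hJ3⟩ := (((hlim.eventually_const_lt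
    (show (1 : ℝ) / 3 - ε < 1 / 3 by linarith)).and
    (hlim2.eventually_lt_const (show (1 : ℝ) / 3 < 1 / 3 + ε by linarith))).and
      (eventually_ge_atTop 2)).exists
  have hv : HasMean (fun p => (if p % 4 = 1 ∧ sgn hs (frob p) = -1 then (1 : ℝ) else 0) +
      ∑ j ∈ Finset.Ico 2 J, ((if LSpl hs j j p then (1 : ℝ) else 0) -
      (if LSpl hs (j + 1) j p then (1 : ℝ) else 0))) (1 / 4 + ∑ j ∈ Finset.Ico 2 J, piece 2 j) :=
    (hasMean_inert hζ hs).add
      (HasMean.sum _ fun j hj => hasMean_LSpl_piece hs (Finset.mem_Ico.mp hj).1)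
  refine ⟨_, _, _, _, {2, 3}, hv,
    hv.add (hasMean_spl Nat.prime_two gen_three (by norm_num) (Nat.zero_le J)), hJ1, hJ2,
    fun p hp hpS => ?_⟩
  rw [Finset.mem_insert, Finset.mem_singleton, not_or] at hpS
  have hpa3 : ¬ (p : ℤ) ∣ 3 := fun h =>
    hpS.2 ((Nat.prime_dvd_prime_iff_eq hp Nat.prime_three).mp (by exact_mod_cast h))
  have hp1 : p - 1 ≠ 0 := by
    have := hp.two_le
    omega
  have hodd : p % 2 = 1 := hp.eq_two_or_odd.resolve_left hpS.1
  have h2 : Spl 3 2 J 0 p ↔ ¬ padicValNat 2 (p - 1) < J := by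
    rw [spl_iff Nat.prime_two hp, pow_zero, Nat.div_one, not_lt]
    exact ⟨fun h => h.1, fun h => ⟨h, pow_card_eq_one hp hpa3⟩⟩
  have h8 : 4 ∣ p - 1 ↔ 2 ≤ padicValNat 2 (p - 1) := by
    rw [show (4 : ℕ) = 2 ^ 2 by norm_num, padicValNat_dvd_iff_le hp1]
  simp only [h2, exists_dvd_lucasNum_iff hs hp hpS.1]
  have h3 : (0 : ℝ) ≤ if 2 ∣ orderOf (xA hs (plc p hp)) then (0 : ℝ) else 1 := by
    split_ifs <;> norm_num
  have h4 : (if 2 ∣ orderOf (xA hs (plc p hp)) then (0 : ℝ) else 1) ≤ 1 := by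
    split_ifs <;> norm_num
  have h30 : (0 : ℝ) ≤ if ¬ padicValNat 2 (p - 1) < J then (1 : ℝ) else 0 := by
    split_ifs <;> norm_num
  rcases Int.units_eq_one_or (sgn hs (frob p)) with he | he
  · have hne : ¬ (p % 4 = 1 ∧ sgn hs (frob p) = -1) := by
      rintro ⟨-, h⟩
      rw [he] at h
      exact absurd h (by decide)
    rw [if_neg hne, zero_add]
    have h1 : ∑ j ∈ Finset.Ico 2 J, ((if LSpl hs j j p then (1 : ℝ) else 0) -
        (if LSpl hs (j + 1) j p then (1 : ℝ) else 0)) =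
          if 2 ≤ padicValNat 2 (p - 1) ∧ padicValNat 2 (p - 1) < J then
          (if 2 ∣ orderOf (xA hs (plc p hp)) then (0 : ℝ) else 1) else 0 := by
      rw [Finset.sum_congr rfl fun j _ => LSpl_sub hs hp hpS.1 he j, Finset.sum_ite_eq']
      simp only [Finset.mem_Ico]
    rw [h1]
    by_cases h5 : 2 ≤ padicValNat 2 (p - 1)
    · by_cases h7 : padicValNat 2 (p - 1) < J
      · rw [if_pos ⟨h5, h7⟩, if_neg (not_not.mpr h7), add_zero]
        exact ⟨le_rfl, le_rfl⟩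
      · rw [if_neg (fun h => h7 h.2), if_pos h7, zero_add]
        exact ⟨h3, h4⟩
    · have h6 : p % 4 = 3 := by
        have h7 : ¬ 4 ∣ p - 1 := fun h => h5 (h8.mp h)
        omega
      rw [if_neg (fun h => h5 h.1), if_pos (even_of_three hs hp h6), zero_add]
      exact ⟨le_rfl, h30⟩
  · have hL : ∀ m k : ℕ, ¬ LSpl hs m k p := by
      rintro m k ⟨h, -⟩
      rw [he] at h
      exact absurd h (by decide)
    have h1 : ∑ j ∈ Finset.Ico 2 J, ((if LSpl hs j j p then (1 : ℝ) else 0) -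
        (if LSpl hs (j + 1) j p then (1 : ℝ) else 0)) = 0 :=
      Finset.sum_eq_zero fun j _ => by rw [if_neg (hL _ _), if_neg (hL _ _), sub_self]
    rw [h1, add_zero]
    rcases (show p % 4 = 1 ∨ p % 4 = 3 by omega) with h6 | h6
    · rw [if_pos ⟨h6, he⟩, if_neg (odd_of_inert_one hs hp he h6)]
      exact ⟨le_rfl, by linarith⟩
    · rw [if_neg (fun h => by omega), if_pos (even_of_three hs hp h6), zero_add]
      exact ⟨le_rfl, h30⟩

open Classical in
/-- **Lagarias' theorem** (1985), mean value form -/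
theorem hasMean_dvd_lucasNum :
    HasMean (fun p => if ∃ n : ℕ, p ∣ lucasNum n then (1 : ℝ) else 0) (2 / 3) := by
  have h1 := (hasMean_const 1).add (hasMean_not_dvd_lucasNum.const_mul (-1))
  have h2 : (1 : ℝ) + (-1) * (1 / 3) = 2 / 3 := by norm_num
  rw [h2] at h1
  refine HasMean.congr h1 ∅ fun p _ _ => ?_
  split_ifs <;> norm_num

open Classical in
/-- **Lagarias' theorem** (1985): the primes which divide some Lucas number have natural density
`2/3`. -/
theorem density_dvd_lucasNum :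
    Tendsto (fun x : ℕ => (((Finset.range (x + 1)).filter fun p : ℕ =>
      p.Prime ∧ ∃ n : ℕ, p ∣ lucasNum n).card : ℝ) / Nat.primeCounting x) atTop
      (𝓝 (2 / 3)) :=
  tendsto_ratio hasMean_dvd_lucasNum

end Fermat.Agent.Cor.Ord
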