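import Fermat.Agent.Corollaries.Ord.LucasRange

/-!
# The prime divisors of the Lucas numbers

Lagarias (1985): the primes which divide some Lucas number `L_n` (`2, 1, 3, 4, 7, 11, 18, ...`) have natural
density `2/3`.
-/

set_option autoImplicit false

open NumberField Filter Topology
open Fermat.Agent.Frob Fermat.Agent.FrobDensity Fermat.Agent.Cor.Cheb Fermat.Agent.Cor.Art

namespace Fermat.Agent.Cor.Ord

local notation "Qbar" => AlgebraicClosure ℚ

/-- the Lucas numbers `2, 1, 3, 4, 7, 11, 18, ...` -/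
def lucasNum : ℕ → ℕ
  | 0 => 2
  | 1 => 1
  | n + 2 => lucasNum n + lucasNum (n + 1)

/-- Lucas and Fibonacci numbers -/
lemma lucasNum_succ (n : ℕ) : lucasNum (n + 1) = Nat.fib n + Nat.fib (n + 2) := by
  induction n using Nat.twoStepInduction with
  | zero => simp [lucasNum]
  | one => simp [lucasNum, Nat.fib_add_two]
  | more n h1 h2 =>
    rw [lucasNum, h1, h2]
    simp only [Nat.fib_add_two]
    ring

/-! ### Elements of order two in cyclic groups -/

section cyclic

variable {k : Type*} [Field k] {x : k}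

lemma exists_pow_eq_neg_one_iff (hne : (-1 : k) ≠ 1) (hx : 0 < orderOf x) :
    (∃ n : ℕ, x ^ n = -1) ↔ 2 ∣ orderOf x := by
  constructor
  · rintro ⟨n, hn⟩
    by_contra hodd
    have h1 : Odd (orderOf x) := by
      rw [← Nat.not_even_iff_odd, even_iff_two_dvd]
      exact hodd
    have h2 : (x ^ n) ^ orderOf x = 1 := by
      rw [← pow_mul, mul_comm, pow_mul, pow_orderOf_eq_one, one_pow]
    rw [hn, h1.neg_one_pow] at h2
    exact hne h2
  · rintro ⟨t, ht⟩
    refine ⟨t, ?_⟩
    have h1 : (x ^ t) ^ 2 = 1 := by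
      rw [← pow_mul, mul_comm, ← ht, pow_orderOf_eq_one]
    have h1' : (x ^ t - 1) * (x ^ t + 1) = 0 := by linear_combination h1
    rcases mul_eq_zero.mp h1' with h2 | h2
    · exfalso
      have h3 := orderOf_dvd_of_pow_eq_one (sub_eq_zero.mp h2)
      have h4 := Nat.le_of_dvd (by omega) h3
      omega
    · exact eq_neg_of_add_eq_zero_left h2

lemma not_two_dvd_orderOf_iff {N : ℕ} (hN : N ≠ 0) (hx : x ^ N = 1) :
    ¬ 2 ∣ orderOf x ↔ x ^ (N / 2 ^ padicValNat 2 N) = 1 := by
  have hord : orderOf x ∣ N := orderOf_dvd_of_pow_eq_one hx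
  have hdiv : 2 ^ padicValNat 2 N ∣ N := pow_padicValNat_dvd
  rw [← orderOf_dvd_iff_pow_eq_one]
  constructor
  · intro h
    have h1 : (orderOf x).Coprime (2 ^ padicValNat 2 N) :=
      Nat.Coprime.pow_right _ (((Nat.Prime.coprime_iff_not_dvd Nat.prime_two).mpr h).symm)
    refine h1.dvd_of_dvd_mul_left ?_
    rwa [Nat.mul_div_cancel' hdiv]
  · intro h hr'
    have h1 : 2 ∣ N / 2 ^ padicValNat 2 N := hr'.trans h
    have h2 : 2 ^ (padicValNat 2 N + 1) ∣ N := by
      rw [pow_succ]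
      conv_rhs => rw [← Nat.mul_div_cancel' hdiv]
      exact mul_dvd_mul_left _ h1
    exact pow_succ_padicValNat_not_dvd hN h2

end cyclic

/-- Frobenius elements and `n`-th roots of an algebraic integer `t` -/
theorem frob_fix_iff_unit {A : ValuationSubring Qbar} {p : ℕ} (hp : p.Prime)
    (hA : A.LiesOverPrime p) {σ : GQ} (hσ : A.IsFrobeniusAt σ p) {n : ℕ} (hn : n ≠ 0)
    (hpn : p.Coprime n) (hdvd : n ∣ p - 1) {t : Zbar} (ht : redA A t ≠ 0)
    (hσt : σ (t : Qbar) = t) {γ : Qbar} (hγ : γ ^ n = t) :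
    σ γ = γ ↔ (redA A t) ^ ((p - 1) / n) = 1 := by
  have hγint : IsIntegral ℤ γ := by
    refine IsIntegral.of_pow (Nat.pos_of_ne_zero hn) ?_
    rw [hγ]
    exact t.2
  have hγ0 : γ ≠ 0 := by
    rintro rfl
    apply ht
    have h1 : t = 0 := Subtype.ext (by rw [← hγ, zero_pow hn]; rfl)
    rw [h1, map_zero]
  set b : IsLocalRing.ResidueField A := redA A ⟨γ, hγint⟩ with hb
  have hbn : b ^ n = redA A t := by
    rw [hb, ← map_pow]
    congr 1
    exact Subtype.ext hγ
  have hb0 : b ≠ 0 := by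
    intro h
    rw [h, zero_pow hn] at hbn
    exact ht hbn.symm
  have hfrob : redA A (σ • (⟨γ, hγint⟩ : Zbar)) = b ^ p := redA_frob hσ _
  have hpow : (redA A t) ^ ((p - 1) / n) = b ^ (p - 1) := by
    rw [← hbn, ← pow_mul, Nat.mul_div_cancel' hdvd]
  rw [hpow]
  have hp1 : b ^ (p - 1) = 1 ↔ b ^ p = b := by
    constructor
    · intro h
      conv_lhs => rw [← Nat.sub_add_cancel hp.one_le]
      rw [pow_succ, h, one_mul]
    · intro h
      have h1 : b ^ (p - 1) * b = 1 * b := by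
        rw [← pow_succ, Nat.sub_add_cancel hp.one_le, h, one_mul]
      exact mul_right_cancel₀ hb0 h1
  rw [hp1, ← hfrob]
  constructor
  · intro h
    rw [hb]
    congr 1
    exact Subtype.ext h
  · intro h
    have hξ : (σ γ / γ) ^ n = 1 := by
      rw [div_pow, ← map_pow, hγ, hσt, div_self]
      rw [← hγ]
      exact pow_ne_zero n hγ0
    have hξint : IsIntegral ℤ (σ γ / γ) := by
      refine IsIntegral.of_pow (Nat.pos_of_ne_zero hn) ?_
      rw [hξ]
      exact isIntegral_one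
    have h1 : σ • (⟨γ, hγint⟩ : Zbar) = ⟨σ γ / γ, hξint⟩ * ⟨γ, hγint⟩ :=
      Subtype.ext (div_mul_cancel₀ _ hγ0).symm
    rw [h1, map_mul, ← hb] at h
    have h2 : redA A ⟨σ γ / γ, hξint⟩ = 1 := mul_right_cancel₀ hb0 (by rw [h, one_mul])
    have h3 : toVal A ⟨σ γ / γ, hξint⟩ = 1 := by
      refine GalRep.eq_one_of_residue_eq_one hA hpn ?_ h2
      exact Subtype.ext hξ
    have h4 : σ γ / γ = 1 := congrArg Subtype.val h3
    exact (div_eq_one_iff_eq hγ0).mp h4

/-! ### The golden ratio modulo `p` -/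

section gold

variable {s : Qbar} (hs : s ^ 2 = 5)

include hs in
lemma gold_sq : gold s ^ 2 = gold s + 1 := by
  rw [gold]
  linear_combination (1 / 4 : Qbar) * hs

include hs in
lemma gold_isIntegral : IsIntegral ℤ (gold s) := by
  refine ⟨Polynomial.X ^ 2 - Polynomial.X - 1, ?_, ?_⟩
  · have h1 : (Polynomial.X ^ 2 - Polynomial.X - 1 : Polynomial ℤ) =
        Polynomial.X ^ 2 - (Polynomial.X + 1) := by ring
    rw [h1]
    refine Polynomial.monic_X_pow_sub ?_
    compute_degree!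
  · simp only [Polynomial.eval₂_sub, Polynomial.eval₂_pow, Polynomial.eval₂_X,
      Polynomial.eval₂_one]
    linear_combination gold_sq hs

/-- the golden ratio as an algebraic integer -/
noncomputable def goldZ : Zbar := ⟨gold s, gold_isIntegral hs⟩

include hs in
lemma neg_s_sq : (-s) ^ 2 = 5 := by rw [neg_sq, hs]

lemma goldZ_mul : goldZ hs * goldZ (neg_s_sq hs) = -1 := Subtype.ext (gold_mul hs)

lemma goldZ_sq : goldZ hs ^ 2 = goldZ hs + 1 := Subtype.ext (gold_sq hs)

lemma lucasNum_eq (n : ℕ) :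
    ((lucasNum n : ℕ) : Zbar) = goldZ hs ^ n + goldZ (neg_s_sq hs) ^ n := by
  induction n using Nat.twoStepInduction with
  | zero =>
    rw [lucasNum]
    norm_num
  | one =>
    rw [lucasNum, pow_one, pow_one]
    refine Subtype.ext ?_
    change ((1 : ℕ) : Qbar) = gold s + gold (-s)
    rw [gold, gold]
    push_cast
    ring
  | more n h1 h2 =>
    rw [lucasNum, Nat.cast_add, h1, h2]
    have h3 := goldZ_sq hs
    have h4 := goldZ_sq (neg_s_sq hs)
    linear_combination (-goldZ hs ^ n) * h3 - goldZ (neg_s_sq hs) ^ n * h4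

variable {A : ValuationSubring Qbar} {p : ℕ}

/-- the golden ratio in the residue field -/
noncomputable def gA (A : ValuationSubring Qbar) : IsLocalRing.ResidueField A := redA A (goldZ hs)

lemma gA_mul (A : ValuationSubring Qbar) : gA hs A * gA (neg_s_sq hs) A = -1 := by
  rw [gA, gA, ← map_mul, goldZ_mul, map_neg, map_one]

lemma gA_ne (A : ValuationSubring Qbar) : gA hs A ≠ 0 := by
  intro h
  have h1 := gA_mul hs A
  rw [h, zero_mul] at h1
  exact one_ne_zero (α := IsLocalRing.ResidueField A) (by linear_combination h1)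

lemma gA_pow_of_one {σ : GQ} (hσ : A.IsFrobeniusAt σ p)
    (h : sgn hs σ = 1) : gA hs A ^ p = gA hs A := by
  have h1 : redA A (σ • goldZ hs) = gA hs A ^ p := redA_frob hσ _
  rw [← h1, gA]
  congr 1
  refine Subtype.ext ?_
  change σ (gold s) = gold s
  rw [map_gold, (sgn_one_iff hs σ).mp h]

lemma gA_pow_of_neg {σ : GQ} (hσ : A.IsFrobeniusAt σ p)
    (h : sgn hs σ = -1) : gA hs A ^ p = gA (neg_s_sq hs) A := by
  have h1 : redA A (σ • goldZ hs) = gA hs A ^ p := redA_frob hσ _
  rw [← h1, gA]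
  congr 1
  refine Subtype.ext ?_
  change σ (gold s) = gold (-s)
  rw [map_gold, (sgn_neg_one_iff hs σ).mp h]

/-- `θ` modulo the place -/
noncomputable def xA (A : ValuationSubring Qbar) : IsLocalRing.ResidueField A := -(gA hs A) ^ 2

/-- `p ∣ L_n` iff `θ ^ n = -1` in the residue field -/
lemma dvd_lucasNum_iff (hp : p.Prime) (hA : A.LiesOverPrime p) (n : ℕ) :
    p ∣ lucasNum n ↔ xA hs A ^ n = -1 := by
  have hchar : CharP (IsLocalRing.ResidueField A) p := charP_residue hp hA
  rw [← CharP.cast_eq_zero_iff (IsLocalRing.ResidueField A) p, ← map_natCast (redA A),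
    lucasNum_eq hs, map_add, map_pow, map_pow]
  change gA hs A ^ n + gA (neg_s_sq hs) A ^ n = 0 ↔ _
  have h1 : xA hs A * gA (neg_s_sq hs) A = gA hs A := by
    rw [xA]
    linear_combination (-gA hs A) * gA_mul hs A
  have h2 : gA hs A ^ n = xA hs A ^ n * gA (neg_s_sq hs) A ^ n := by rw [← mul_pow, h1]
  have h3 : gA (neg_s_sq hs) A ^ n ≠ 0 := pow_ne_zero _ (gA_ne _ A)
  rw [h2]
  constructor
  · intro h
    have h4 : (xA hs A ^ n + 1) * gA (neg_s_sq hs) A ^ n = 0 := by linear_combination h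
    exact eq_neg_of_add_eq_zero_left ((mul_eq_zero.mp h4).resolve_right h3)
  · intro h
    rw [h]
    ring

lemma neg_one_ne (hp : p.Prime) (hp2 : p ≠ 2) (hA : A.LiesOverPrime p) :
    (-1 : IsLocalRing.ResidueField A) ≠ 1 := by
  have hchar : CharP (IsLocalRing.ResidueField A) p := charP_residue hp hA
  intro h
  have h1 : ((2 : ℕ) : IsLocalRing.ResidueField A) = 0 := by
    push_cast
    linear_combination -h
  rw [CharP.cast_eq_zero_iff (IsLocalRing.ResidueField A) p] at h1
  exact hp2 ((Nat.prime_dvd_prime_iff_eq hp Nat.prime_two).mp h1)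

/-- powers of `θ`, split case -/
lemma xA_pow_of_one (hp : p.Prime) (hp2 : p ≠ 2) {σ : GQ}
    (hσ : A.IsFrobeniusAt σ p) (h : sgn hs σ = 1) :
    xA hs A ^ ((p - 1) / 2) = (-1) ^ ((p - 1) / 2) := by
  have hodd : p % 2 = 1 := hp.eq_two_or_odd.resolve_left hp2
  have h1 : gA hs A ^ (p - 1) = 1 := by
    have h2 : gA hs A ^ (p - 1) * gA hs A = 1 * gA hs A := by
      rw [← pow_succ, Nat.sub_add_cancel hp.one_le, one_mul, gA_pow_of_one hs hσ h]
    exact mul_right_cancel₀ (gA_ne hs A) h2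
  rw [xA, neg_pow, ← pow_mul, Nat.mul_div_cancel' (by omega), h1, mul_one]

/-- powers of `θ`, inert case -/
lemma xA_pow_of_neg (hp : p.Prime) (hp2 : p ≠ 2) {σ : GQ}
    (hσ : A.IsFrobeniusAt σ p) (h : sgn hs σ = -1) :
    xA hs A ^ ((p + 1) / 2) = -(-1) ^ ((p + 1) / 2) := by
  have hodd : p % 2 = 1 := hp.eq_two_or_odd.resolve_left hp2
  have h1 : gA hs A ^ (p + 1) = -1 := by
    rw [pow_succ, gA_pow_of_neg hs hσ h, mul_comm, gA_mul]
  rw [xA, neg_pow, ← pow_mul, Nat.mul_div_cancel' (by omega), h1]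
  ring

end gold

end Fermat.Agent.Cor.Ord
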