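import Fermat.Agent.Corollaries.Ord.TwoBase

/-!
# The Galois action on the roots of `X ^ (2 ^ m) - θ`, `θ = -φ²`, `φ` the golden ratio

`DAff q` is the group of the matrices `(u c; 0 e)`, `u ∈ (ℤ/q)ˣ`, `e = ±1`. For `β ^ q = θ` and a primitive
`q`-th root of unity `ζ` we have `σ β = ζ ^ c β ^ e`. For `q = 2 ^ m`, `2 ≤ m`, the translations in the image are
the even ones since `θ = (i φ)²`.
-/

set_option autoImplicit false

open NumberField Filter Topology
open Fermat.Agent.Frob Fermat.Agent.FrobDensity Fermat.Agent.Cor.Cheb Fermat.Agent.Cor.Art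

namespace Fermat.Agent.Cor.Ord

local notation "Qbar" => AlgebraicClosure ℚ

/-- the matrices `(u c; 0 e)` -/
@[ext] structure DAff (q : ℕ) where
  /-- the upper right entry -/
  c : ZMod q
  /-- the upper left entry -/
  u : (ZMod q)ˣ
  /-- the lower right entry -/
  e : ℤˣ

namespace DAff

variable {q : ℕ}

/-- a sign in `ℤ/q` -/
def sc (q : ℕ) (e : ℤˣ) : ZMod q := ((e : ℤ) : ZMod q)

@[simp] lemma sc_one : sc q 1 = 1 := by simp [sc]
lemma sc_mul (a b : ℤˣ) : sc q (a * b) = sc q a * sc q b := by simp [sc]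
lemma sc_neg_one : sc q (-1) = -1 := by simp [sc]
lemma sc_mul_self (a : ℤˣ) : sc q a * sc q a = 1 := by
  rw [← sc_mul, Int.units_mul_self, sc_one]

instance : Mul (DAff q) := ⟨fun a b => ⟨(a.u : ZMod q) * b.c + sc q b.e * a.c, a.u * b.u, a.e * b.e⟩⟩
instance : One (DAff q) := ⟨⟨0, 1, 1⟩⟩
instance : Inv (DAff q) := ⟨fun a => ⟨-(sc q a.e * (((a.u⁻¹ : (ZMod q)ˣ) : ZMod q) * a.c)), a.u⁻¹, a.e⁻¹⟩⟩

@[simp] lemma mul_c (a b : DAff q) : (a * b).c = (a.u : ZMod q) * b.c + sc q b.e * a.c := rfl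
@[simp] lemma mul_u (a b : DAff q) : (a * b).u = a.u * b.u := rfl
@[simp] lemma mul_e (a b : DAff q) : (a * b).e = a.e * b.e := rfl
@[simp] lemma one_c : (1 : DAff q).c = 0 := rfl
@[simp] lemma one_u : (1 : DAff q).u = 1 := rfl
@[simp] lemma one_e : (1 : DAff q).e = 1 := rfl
@[simp] lemma inv_c (a : DAff q) :
    a⁻¹.c = -(sc q a.e * (((a.u⁻¹ : (ZMod q)ˣ) : ZMod q) * a.c)) := rfl
@[simp] lemma inv_u (a : DAff q) : a⁻¹.u = a.u⁻¹ := rfl
@[simp] lemma inv_e (a : DAff q) : a⁻¹.e = a.e⁻¹ := rfl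

instance : Group (DAff q) := Group.ofLeftAxioms
  (fun a b c => by
    ext
    · simp only [mul_c, mul_u, mul_e, Units.val_mul, sc_mul]
      ring
    · simp only [mul_u, mul_assoc]
    · simp only [mul_e, mul_assoc])
  (fun a => by
    ext
    · simp
    · simp
    · simp)
  (fun a => by
    ext
    · simp only [mul_c, inv_u, inv_c, one_c]
      linear_combination (-((a.u⁻¹ : (ZMod q)ˣ) : ZMod q) * a.c) * sc_mul_self (q := q) a.e
    · simp
    · simp)

/-- `DAff q` as a set -/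
def equivProd (q : ℕ) : DAff q ≃ ZMod q × (ZMod q)ˣ × ℤˣ where
  toFun a := (a.c, a.u, a.e)
  invFun x := ⟨x.1, x.2.1, x.2.2⟩
  left_inv _ := rfl
  right_inv _ := rfl

instance [NeZero q] : Finite (DAff q) := Finite.of_equiv _ (equivProd q).symm

lemma translation_pow (t : ZMod q) (n : ℕ) : (⟨t, 1, 1⟩ : DAff q) ^ n = ⟨n * t, 1, 1⟩ := by
  induction n with
  | zero =>
    ext
    · simp
    · simp
    · simp
  | succ n ih =>
    rw [pow_succ, ih]
    ext
    · simp only [mul_c, Units.val_one, one_mul, sc_one]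
      push_cast
      ring
    · simp
    · simp

end DAff

open DAff

/-! ### The sign -/

section sgn

variable {s : Qbar} (hs : s ^ 2 = 5)

include hs in
lemma s_ne_zero : s ≠ 0 := by
  rintro rfl
  norm_num at hs

include hs in
lemma sgn_aux (σ : GQ) : σ s = s ∨ σ s = -s := by
  refine sq_eq_sq_iff_eq_or_eq_neg.mp ?_
  rw [← map_pow, hs, map_ofNat]

open Classical in
/-- the sign `σ √5 / √5` -/
noncomputable def sgn : GQ →* ℤˣ where
  toFun σ := if σ s = s then 1 else -1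
  map_one' := if_pos rfl
  map_mul' σ τ := by
    have h0 := s_ne_zero hs
    have hne : -s ≠ s := fun h => h0 (by linear_combination (-1 / 2 : Qbar) * h)
    have hne' : ¬ (s = -s) := fun h => hne h.symm
    have hmul : (σ * τ) s = σ (τ s) := rfl
    rcases sgn_aux hs σ with h1 | h1 <;> rcases sgn_aux hs τ with h2 | h2
    · rw [if_pos (by rw [hmul, h2, h1]), if_pos h1, if_pos h2, one_mul]
    · rw [if_neg (by rw [hmul, h2, map_neg, h1]; exact hne), if_pos h1, if_neg (by rw [h2]; exact hne),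
        one_mul]
    · rw [if_neg (by rw [hmul, h2, h1]; exact hne), if_neg (by rw [h1]; exact hne), if_pos h2, mul_one]
    · rw [if_pos (by rw [hmul, h2, map_neg, h1, neg_neg]), if_neg (by rw [h1]; exact hne),
        if_neg (by rw [h2]; exact hne)]
      rfl

lemma sgn_one_iff (σ : GQ) : sgn hs σ = 1 ↔ σ s = s := by
  change (if σ s = s then (1 : ℤˣ) else -1) = 1 ↔ _
  split_ifs with h
  · exact ⟨fun _ => h, fun _ => rfl⟩
  · exact ⟨fun h1 => absurd h1 (by decide), fun h1 => absurd h1 h⟩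

lemma sgn_neg_one_iff (σ : GQ) : sgn hs σ = -1 ↔ σ s = -s := by
  have h0 := s_ne_zero hs
  have hne : -s ≠ s := fun h => h0 (by linear_combination (-1 / 2 : Qbar) * h)
  constructor
  · intro h
    rcases sgn_aux hs σ with h1 | h1
    · rw [(sgn_one_iff hs σ).mpr h1] at h
      exact absurd h (by decide)
    · exact h1
  · intro h
    rcases Int.units_eq_one_or (sgn hs σ) with h1 | h1
    · rw [sgn_one_iff, h] at h1
      exact absurd h1 hne
    · exact h1

/-- the golden ratio -/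
noncomputable def gold (s : Qbar) : Qbar := (1 + s) / 2

/-- `θ = φ / φ' = -φ²` -/
noncomputable def theta (s : Qbar) : Qbar := -(gold s) ^ 2

include hs in
lemma gold_mul : gold s * gold (-s) = -1 := by
  rw [gold, gold]
  linear_combination (-1 / 4 : Qbar) * hs

include hs in
lemma gold_ne : gold s ≠ 0 := fun h => by
  have h1 := gold_mul hs
  rw [h, zero_mul] at h1
  norm_num at h1

include hs in
lemma theta_ne : theta s ≠ 0 := neg_ne_zero.mpr (pow_ne_zero 2 (gold_ne hs))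

lemma map_gold (σ : GQ) : σ (gold s) = gold (σ s) := by
  rw [gold, gold, map_div₀, map_add, map_one, map_ofNat]

include hs in
lemma theta_inv : theta (-s) = (theta s)⁻¹ := by
  refine eq_inv_of_mul_eq_one_left ?_
  rw [theta, theta]
  have h1 := gold_mul hs
  linear_combination (gold s * gold (-s) - 1) * h1

lemma map_theta (σ : GQ) : σ (theta s) = theta s ^ ((sgn hs σ : ℤˣ) : ℤ) := by
  have h1 : σ (theta s) = theta (σ s) := by rw [theta, theta, map_neg, map_pow, map_gold]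
  rw [h1]
  rcases Int.units_eq_one_or (sgn hs σ) with h2 | h2
  · rw [h2, (sgn_one_iff hs σ).mp h2]
    simp
  · rw [h2, (sgn_neg_one_iff hs σ).mp h2, theta_inv hs]
    simp

end sgn

/-! ### The action -/

section act

variable {q : ℕ} [NeZero q] {ζ β s : Qbar} (hζ : IsPrimitiveRoot ζ q) (hs : s ^ 2 = 5)
  (hβ : β ^ q = theta s)

include hβ hs in
lemma beta_ne : β ≠ 0 := by
  rintro rfl
  rw [zero_pow (NeZero.ne q)] at hβ
  exact theta_ne hs hβ.symm

include hζ in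
omit [NeZero q] in
lemma zeta_zpow_intCast {a b : ℤ} (h : (a : ZMod q) = (b : ZMod q)) (hq : q ≠ 0) : ζ ^ a = ζ ^ b := by
  have h0 : ζ ≠ 0 := hζ.ne_zero hq
  have h1 : ζ ^ (a - b) = 1 := by
    rw [hζ.zpow_eq_one_iff_dvd, ← ZMod.intCast_zmod_eq_zero_iff_dvd]
    push_cast
    rw [h, sub_self]
  rw [zpow_sub₀ h0, div_eq_one_iff_eq (zpow_ne_zero _ h0)] at h1
  exact h1

include hζ hβ in
lemma exists_kd (σ : GQ) : ∃ i : ℤ, σ β = ζ ^ i * β ^ ((sgn hs σ : ℤˣ) : ℤ) := by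
  have h0 := beta_ne hs hβ
  have h1 : (σ β / β ^ ((sgn hs σ : ℤˣ) : ℤ)) ^ q = 1 := by
    rw [div_pow, ← map_pow, hβ, map_theta hs, ← hβ, ← zpow_natCast, ← zpow_natCast, ← zpow_mul,
      ← zpow_mul, mul_comm, div_self]
    exact zpow_ne_zero _ h0
  obtain ⟨i, -, hi⟩ := hζ.eq_pow_of_pow_eq_one h1
  exact ⟨i, by rw [zpow_natCast, hi, div_mul_cancel₀ _ (zpow_ne_zero _ h0)]⟩

/-- the cocycle -/
noncomputable def kd (σ : GQ) : ZMod q := ((exists_kd hζ hs hβ σ).choose : ℤ)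

lemma kd_spec' (σ : GQ) {n : ℤ} (h : (n : ZMod q) = kd hζ hs hβ σ) :
    σ β = ζ ^ n * β ^ ((sgn hs σ : ℤˣ) : ℤ) := by
  rw [zeta_zpow_intCast hζ h (NeZero.ne q)]
  exact (exists_kd hζ hs hβ σ).choose_spec

lemma kd_eq_of {σ : GQ} {n : ℤ} (h : σ β = ζ ^ n * β ^ ((sgn hs σ : ℤˣ) : ℤ)) :
    kd hζ hs hβ σ = n := by
  have h0 := beta_ne hs hβ
  have hz : ζ ≠ 0 := hζ.ne_zero (NeZero.ne q)
  have h2 := mul_right_cancel₀ (zpow_ne_zero _ h0) (h.symm.trans (exists_kd hζ hs hβ σ).choose_spec)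
  have h3 : ζ ^ (n - (exists_kd hζ hs hβ σ).choose) = 1 := by
    rw [zpow_sub₀ hz, h2, div_self (zpow_ne_zero _ hz)]
  rw [hζ.zpow_eq_one_iff_dvd, ← ZMod.intCast_zmod_eq_zero_iff_dvd] at h3
  push_cast at h3
  rw [kd]
  exact (sub_eq_zero.mp h3).symm

/-- **The action on the roots of `X ^ q - θ`.** -/
noncomputable def daff : GQ →* DAff q where
  toFun σ := ⟨kd hζ hs hβ σ, cyc hζ σ, sgn hs σ⟩
  map_one' := by
    ext
    · rw [DAff.one_c, kd_eq_of hζ hs hβ (n := 0) (by simp), Int.cast_zero]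
    · rw [map_one, DAff.one_u]
    · exact congrArg Units.val (map_one (sgn hs))
  map_mul' σ τ := by
    ext
    · rw [DAff.mul_c]
      have hσ := kd_spec' hζ hs hβ σ (n := ((kd hζ hs hβ σ).val : ℤ))
        (by rw [Int.cast_natCast, ZMod.natCast_zmod_val])
      have hτ := kd_spec' hζ hs hβ τ (n := ((kd hζ hs hβ τ).val : ℤ))
        (by rw [Int.cast_natCast, ZMod.natCast_zmod_val])
      have hz : ζ ≠ 0 := hζ.ne_zero (NeZero.ne q)
      have hcyc : σ ζ = ζ ^ ((((cyc hζ σ : (ZMod q)ˣ) : ZMod q).val : ℕ) : ℤ) := by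
        rw [zpow_natCast]
        exact cyc_spec hζ σ
      have h1 : (σ * τ) β = ζ ^ (((((cyc hζ σ : (ZMod q)ˣ) : ZMod q).val : ℕ) : ℤ) *
          ((kd hζ hs hβ τ).val : ℤ) + ((kd hζ hs hβ σ).val : ℤ) * ((sgn hs τ : ℤˣ) : ℤ)) *
          β ^ ((sgn hs (σ * τ) : ℤˣ) : ℤ) := by
        rw [AlgEquiv.mul_apply, hτ, map_mul, map_zpow₀, map_zpow₀, hcyc, hσ, mul_zpow, ← zpow_mul,
          ← zpow_mul, ← zpow_mul, zpow_add₀ hz, map_mul, Units.val_mul, mul_assoc]
      rw [kd_eq_of hζ hs hβ h1]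
      push_cast
      rw [ZMod.natCast_zmod_val, ZMod.natCast_zmod_val, ZMod.natCast_zmod_val]
      simp only [sc]
      ring
    · rw [map_mul, DAff.mul_u]
    · exact congrArg Units.val (map_mul (sgn hs) σ τ)

@[simp] lemma daff_c (σ : GQ) : (daff hζ hs hβ σ).c = kd hζ hs hβ σ := rfl
@[simp] lemma daff_u (σ : GQ) : (daff hζ hs hβ σ).u = cyc hζ σ := rfl
@[simp] lemma daff_e (σ : GQ) : (daff hζ hs hβ σ).e = sgn hs σ := rfl

/-- `σ (β ^ d)` -/
lemma map_beta_pow (σ : GQ) (d : ℕ) : σ (β ^ d) =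
    ζ ^ ((kd hζ hs hβ σ).val * d) * (β ^ d) ^ ((sgn hs σ : ℤˣ) : ℤ) := by
  have h := kd_spec' hζ hs hβ σ (n := ((kd hζ hs hβ σ).val : ℤ))
    (by rw [Int.cast_natCast, ZMod.natCast_zmod_val])
  rw [zpow_natCast] at h
  rw [map_pow, h, mul_pow, ← pow_mul]
  congr 1
  rw [← zpow_natCast, ← zpow_mul, ← zpow_natCast, ← zpow_mul, mul_comm]

lemma zeta_pow_eq_one_iff_kd (σ : GQ) (d : ℕ) :
    ζ ^ ((kd hζ hs hβ σ).val * d) = 1 ↔ (d : ZMod q) * kd hζ hs hβ σ = 0 := by
  rw [hζ.pow_eq_one_iff_dvd, ← ZMod.natCast_eq_zero_iff]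
  push_cast
  rw [ZMod.natCast_zmod_val, mul_comm]

/-- a power of the root is fixed iff a multiple of the cocycle vanishes -/
lemma beta_pow_fix_iff {σ : GQ} (hσ : sgn hs σ = 1) (d : ℕ) :
    σ (β ^ d) = β ^ d ↔ (d : ZMod q) * kd hζ hs hβ σ = 0 := by
  have h0 := beta_ne hs hβ
  rw [map_beta_pow hζ hs hβ, hσ, Units.val_one, zpow_one, ← zeta_pow_eq_one_iff_kd hζ hs hβ]
  constructor
  · intro h
    exact mul_right_cancel₀ (pow_ne_zero d h0) (by rw [h, one_mul])
  · intro h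
    rw [h, one_mul]

end act

end Fermat.Agent.Cor.Ord
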