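import Fermat.Agent.Corollaries.Ord.LucasGroup

/-!
# The image of the Galois group in `DAff (2 ^ m)`
-/

set_option autoImplicit false

open NumberField Filter Topology
open Fermat.Agent.Frob Fermat.Agent.FrobDensity Fermat.Agent.Cor.Cheb Fermat.Agent.Cor.Art

namespace Fermat.Agent.Cor.Ord

open DAff

local notation "Qbar" => AlgebraicClosure ℚ

/-- the translations by multiples of `2 ^ k` in `DAff (2 ^ m)` -/
def dset (m k : ℕ) : Set (DAff (2 ^ m)) :=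
  {g | g.u = 1 ∧ g.e = 1 ∧ ((2 ^ (m - k) : ℕ) : ZMod (2 ^ m)) * g.c = 0}

lemma card_dset {m k : ℕ} (hk : k ≤ m) : Nat.card (dset m k) = 2 ^ (m - k) := by
  rw [← card_torsion (r := 2) two_ne_zero hk]
  refine Nat.card_congr ⟨fun g => ⟨g.1.c, g.2.2.2⟩, fun c => ⟨⟨c.1, 1, 1⟩, rfl, rfl, c.2⟩,
    fun g => ?_, fun c => rfl⟩
  apply Subtype.ext
  ext
  · rfl
  · exact congrArg Units.val g.2.1.symm
  · exact congrArg Units.val g.2.2.1.symm

lemma conj_mem_dset {m k : ℕ} (x g : DAff (2 ^ m)) : x⁻¹ * g * x ∈ dset m k ↔ g ∈ dset m k := by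
  have h1 : (x⁻¹ * g * x).u = g.u := by
    simp only [DAff.mul_u, DAff.inv_u]
    rw [mul_comm, mul_inv_cancel_left]
  have h1' : (x⁻¹ * g * x).e = g.e := by
    simp only [DAff.mul_e, DAff.inv_e]
    rw [mul_comm, mul_inv_cancel_left]
  rw [dset, Set.mem_ofPred_eq, Set.mem_ofPred_eq, h1, h1']
  refine and_congr_right fun hu => and_congr_right fun he => ?_
  have h2 : (x⁻¹ * g * x).c = sc (2 ^ m) x.e * (((x.u⁻¹ : (ZMod (2 ^ m))ˣ) : ZMod (2 ^ m)) * g.c) := by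
    simp only [DAff.mul_c, DAff.mul_u, DAff.inv_c, DAff.inv_u, hu, he, mul_one, sc_one]
    linear_combination (-((x.u⁻¹ : (ZMod (2 ^ m))ˣ) : ZMod (2 ^ m)) * x.c) *
      sc_mul_self (q := 2 ^ m) x.e
  rw [h2]
  constructor
  · intro h
    have h3 : ((x.u : (ZMod (2 ^ m))ˣ) : ZMod (2 ^ m)) * ((x.u⁻¹ : (ZMod (2 ^ m))ˣ) : ZMod (2 ^ m)) = 1 :=
      Units.mul_inv _
    have h4 := sc_mul_self (q := 2 ^ m) x.e
    linear_combination (sc (2 ^ m) x.e * ((x.u : (ZMod (2 ^ m))ˣ) : ZMod (2 ^ m))) * h -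
      (((2 ^ (m - k) : ℕ) : ZMod (2 ^ m)) * g.c * (sc (2 ^ m) x.e * sc (2 ^ m) x.e)) * h3 -
      (((2 ^ (m - k) : ℕ) : ZMod (2 ^ m)) * g.c) * h4
  · intro h
    linear_combination (sc (2 ^ m) x.e * ((x.u⁻¹ : (ZMod (2 ^ m))ˣ) : ZMod (2 ^ m))) * h

section

variable {q : ℕ} [NeZero q] {ζ s : Qbar}

lemma map_zeta_of (hζ : IsPrimitiveRoot ζ q) {σ : GQ} {n : ℤ}
    (h : (n : ZMod q) = ((cyc hζ σ : (ZMod q)ˣ) : ZMod q)) : σ ζ = ζ ^ n := by
  have h1 : σ ζ = ζ ^ ((((cyc hζ σ : (ZMod q)ˣ) : ZMod q).val : ℕ) : ℤ) := by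
    rw [zpow_natCast]
    exact cyc_spec hζ σ
  rw [h1]
  refine zeta_zpow_intCast hζ ?_ (NeZero.ne q)
  rw [Int.cast_natCast, ZMod.natCast_zmod_val, h]

lemma gen_five : Gen 5 2 :=
  gen_two (ℓ := 5) (e := 1) (b := 1) Nat.prime_five (by norm_num) (by norm_num) odd_one (by norm_num)

/-- the cyclotomic character and the sign are independent -/
lemma exists_cyc_sgn {m : ℕ} [NeZero (2 ^ m)] {ζ : Qbar} (hζ : IsPrimitiveRoot ζ (2 ^ m))
    (hs : s ^ 2 = 5) (u : (ZMod (2 ^ m))ˣ) (e : ℤˣ) : ∃ σ : GQ, cyc hζ σ = u ∧ sgn hs σ = e := by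
  obtain ⟨τ, hτ, b, hb, hne⟩ := gen_five m
  have h1 : cyc hζ τ = 1 := (cyc_eq_one_iff hζ τ).mpr (hτ ζ hζ.pow_eq_one)
  have h2 : sgn hs τ = -1 := by
    rw [sgn_neg_one_iff]
    rcases sgn_aux hs τ with h3 | h3
    · exfalso
      have h4 : b = s ∨ b = -s := by
        refine sq_eq_sq_iff_eq_or_eq_neg.mp ?_
        rw [hb, hs]
        norm_num
      rcases h4 with h4 | h4
      · exact hne (by rw [h4, h3])
      · exact hne (by rw [h4, map_neg, h3])
    · exact h3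
  obtain ⟨σ, hσ⟩ := cyc_surjective hζ u
  by_cases h3 : sgn hs σ = e
  · exact ⟨σ, hσ, h3⟩
  · refine ⟨σ * τ, by rw [map_mul, hσ, h1, mul_one], ?_⟩
    rw [map_mul, h2]
    rcases Int.units_eq_one_or (sgn hs σ) with h4 | h4 <;> rcases Int.units_eq_one_or e with h5 | h5
    · exact absurd (h4.trans h5.symm) h3
    · rw [h4, h5, one_mul]
    · rw [h4, h5]
      rfl
    · exact absurd (h4.trans h5.symm) h3

end

section

variable {m : ℕ} [NeZero (2 ^ m)] {ζ β s : Qbar} (hm : 2 ≤ m) (hζ : IsPrimitiveRoot ζ (2 ^ m))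
  (hs : s ^ 2 = 5) (hβ : β ^ (2 ^ m) = theta s)

include hm hζ

omit [NeZero (2 ^ m)] in
lemma xi_sq : (ζ ^ (2 ^ (m - 2))) ^ 2 = -1 := by
  have h4 : IsPrimitiveRoot (ζ ^ (2 ^ (m - 2))) 4 := by
    refine hζ.pow (by positivity) ?_
    rw [show (4 : ℕ) = 2 ^ 2 by norm_num, ← pow_add, Nat.sub_add_cancel hm]
  set ξ := ζ ^ (2 ^ (m - 2))
  have h2 : (ξ ^ 2 - 1) * (ξ ^ 2 + 1) = 0 := by
    have := h4.pow_eq_one
    linear_combination this
  rcases mul_eq_zero.mp h2 with h3 | h3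
  · exact absurd (sub_eq_zero.mp h3)
      (h4.pow_ne_one_of_pos_of_lt (by norm_num) (by norm_num : 2 < 4))
  · exact eq_neg_of_add_eq_zero_left h3

include hβ

omit [NeZero (2 ^ m)] in
lemma rho_eq : β ^ (2 ^ (m - 1)) = ζ ^ (2 ^ (m - 2)) * gold s ∨
    β ^ (2 ^ (m - 1)) = -(ζ ^ (2 ^ (m - 2)) * gold s) := by
  refine sq_eq_sq_iff_eq_or_eq_neg.mp ?_
  rw [mul_pow, xi_sq hm hζ, ← pow_mul, ← pow_succ, Nat.sub_add_cancel (by omega), hβ, theta]
  ring

/-- translations in the image are even -/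
lemma half_mul_kd_of {σ : GQ} (h : cyc hζ σ = 1) (he : sgn hs σ = 1) :
    ((2 ^ (m - 1) : ℕ) : ZMod (2 ^ m)) * kd hζ hs hβ σ = 0 := by
  rw [← beta_pow_fix_iff hζ hs hβ he]
  have h1 : σ ζ = ζ := (cyc_eq_one_iff hζ σ).mp h
  have h3 : σ (gold s) = gold s := by rw [map_gold, (sgn_one_iff hs σ).mp he]
  rcases rho_eq hm hζ hβ with h2 | h2
  · rw [h2, map_mul, map_pow, h1, h3]
  · rw [h2, map_neg, map_mul, map_pow, h1, h3]

lemma half_mul_kd_ne {σ : GQ} (h : cyc hζ σ = -1) (he : sgn hs σ = 1) :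
    ((2 ^ (m - 1) : ℕ) : ZMod (2 ^ m)) * kd hζ hs hβ σ ≠ 0 := by
  rw [Ne, ← beta_pow_fix_iff hζ hs hβ he]
  have h1 : σ ζ = ζ ^ (-1 : ℤ) := map_zeta_of hζ (by rw [h]; simp)
  have h3 : σ (gold s) = gold s := by rw [map_gold, (sgn_one_iff hs σ).mp he]
  have h4 := xi_sq hm hζ
  have h5 : σ (ζ ^ (2 ^ (m - 2))) = -ζ ^ (2 ^ (m - 2)) := by
    rw [map_pow, h1, zpow_neg_one, inv_pow]
    refine inv_eq_of_mul_eq_one_right ?_
    linear_combination -h4
  have h6 : ζ ^ (2 ^ (m - 2)) * gold s ≠ 0 := by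
    refine mul_ne_zero ?_ (gold_ne hs)
    intro h6
    rw [h6] at h4
    norm_num at h4
  intro h7
  rcases rho_eq hm hζ hβ with h2 | h2
  · rw [h2, map_mul, h5, h3] at h7
    apply h6
    linear_combination (-1 / 2 : Qbar) * h7
  · rw [h2, map_neg, map_mul, h5, h3] at h7
    apply h6
    linear_combination (1 / 2 : Qbar) * h7

lemma half_mul_kd_of_neg {τ : GQ} (h : cyc hζ τ = 1) (he : sgn hs τ = -1) :
    ((2 ^ (m - 1) : ℕ) : ZMod (2 ^ m)) * kd hζ hs hβ τ = 0 := by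
  rw [← zeta_pow_eq_one_iff_kd hζ hs hβ]
  have h0 : β ^ (2 ^ (m - 1)) ≠ 0 := pow_ne_zero _ (beta_ne hs hβ)
  have h1 : τ ζ = ζ := (cyc_eq_one_iff hζ τ).mp h
  have h3 : τ (gold s) = gold (-s) := by rw [map_gold, (sgn_neg_one_iff hs τ).mp he]
  have h4 := xi_sq hm hζ
  have h5 := gold_mul hs
  have h6 : τ (β ^ (2 ^ (m - 1))) * β ^ (2 ^ (m - 1)) = 1 := by
    rcases rho_eq hm hζ hβ with h2 | h2
    · rw [h2, map_mul, map_pow, h1, h3]
      linear_combination (gold s * gold (-s)) * h4 - h5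
    · rw [h2, map_neg, map_mul, map_pow, h1, h3]
      linear_combination (gold s * gold (-s)) * h4 - h5
  rw [map_beta_pow hζ hs hβ, he] at h6
  rw [Units.val_neg, Units.val_one, zpow_neg_one, mul_assoc, inv_mul_cancel₀ h0, mul_one] at h6
  exact h6

lemma exists_even_dtranslation : ∃ κ : GQ, cyc hζ κ = 1 ∧ sgn hs κ = 1 ∧
    ∃ w : (ZMod (2 ^ m))ˣ, kd hζ hs hβ κ = 2 * (w : ZMod (2 ^ m)) := by
  obtain ⟨σ, hσ, hσe⟩ := exists_cyc_sgn hζ hs (-1) 1
  obtain ⟨τ, hτ, hτe⟩ := exists_cyc_sgn hζ hs 1 (-1)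
  have hne := half_mul_kd_ne hm hζ hs hβ hσ hσe
  have hz := half_mul_kd_of_neg hm hζ hs hβ hτ hτe
  have hu : IsUnit (kd hζ hs hβ σ + kd hζ hs hβ τ) := by
    refine isUnit_of_half_mul_ne (by omega) ?_
    intro h
    apply hne
    linear_combination h - hz
  obtain ⟨w, hw⟩ := hu
  refine ⟨σ * τ * σ⁻¹ * τ⁻¹, cyc_comm_eq_one hζ σ τ, ?_, w, ?_⟩
  · simp only [map_mul, map_inv]
    rw [hσe, hτe]
    simp
  · rw [hw, ← daff_c hζ hs hβ, map_mul, map_mul, map_mul, map_inv, map_inv]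
    simp only [DAff.mul_c, DAff.mul_u, DAff.inv_c, DAff.inv_u, DAff.inv_e, daff_c, daff_u,
      daff_e, Units.val_mul]
    rw [hσ, hτ, hσe, hτe]
    simp only [inv_one, inv_neg, sc_one, sc_neg_one, Units.val_neg, Units.val_one]
    ring

/-- the translations in the image are the even ones -/
theorem dtranslation_mem_iff {g : DAff (2 ^ m)} (hg : g.u = 1) (hge : g.e = 1) :
    g ∈ (daff hζ hs hβ).range ↔ ((2 ^ (m - 1) : ℕ) : ZMod (2 ^ m)) * g.c = 0 := by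
  constructor
  · rintro ⟨σ, rfl⟩
    exact half_mul_kd_of hm hζ hs hβ hg hge
  · intro h
    obtain ⟨n, hn⟩ := two_dvd_of_half_mul_eq (by omega) h
    obtain ⟨κ, hκ, hκe, w, hw⟩ := exists_even_dtranslation hm hζ hs hβ
    have h3 : daff hζ hs hβ κ = ⟨kd hζ hs hβ κ, 1, 1⟩ := by
      ext
      · rfl
      · exact congrArg Units.val hκ
      · exact congrArg Units.val hκe
    set k : ℕ := ((n : ZMod (2 ^ m)) * ((w⁻¹ : (ZMod (2 ^ m))ˣ) : ZMod (2 ^ m))).val with hk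
    refine ⟨κ ^ k, ?_⟩
    rw [map_pow, h3, DAff.translation_pow]
    ext
    · change (k : ZMod (2 ^ m)) * kd hζ hs hβ κ = g.c
      rw [hk, ZMod.natCast_zmod_val, hw, hn]
      have h5 : (((w⁻¹ : (ZMod (2 ^ m))ˣ)) : ZMod (2 ^ m)) * (w : ZMod (2 ^ m)) = 1 := Units.inv_mul _
      push_cast
      linear_combination (2 * (n : ZMod (2 ^ m))) * h5
    · exact congrArg Units.val hg.symm
    · exact congrArg Units.val hge.symm

lemma card_drange : Nat.card (daff hζ hs hβ).range = 2 ^ m * (2 ^ m).totient := by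
  let φ : (daff hζ hs hβ).range →* (ZMod (2 ^ m))ˣ × ℤˣ :=
    { toFun := fun g => (g.1.u, g.1.e)
      map_one' := rfl
      map_mul' := fun _ _ => rfl }
  have hφ : Function.Surjective φ := by
    intro v
    obtain ⟨τ, hτ, hτe⟩ := exists_cyc_sgn hζ hs v.1 v.2
    exact ⟨⟨daff hζ hs hβ τ, ⟨τ, rfl⟩⟩, Prod.ext hτ hτe⟩
  have h1 : Nat.card φ.ker = 2 ^ (m - 1) := by
    rw [← card_dset (m := m) (k := 1) (by omega)]
    refine Nat.card_congr ⟨fun x => ⟨x.1.1, congrArg Prod.fst x.2, congrArg Prod.snd x.2,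
        (dtranslation_mem_iff hm hζ hs hβ (congrArg Prod.fst x.2) (congrArg Prod.snd x.2)).mp x.1.2⟩,
      fun y => ⟨⟨y.1, (dtranslation_mem_iff hm hζ hs hβ y.2.1 y.2.2.1).mpr y.2.2.2⟩,
        Prod.ext y.2.1 y.2.2.1⟩,
      fun x => rfl, fun y => rfl⟩
  rw [Subgroup.card_eq_card_quotient_mul_card_subgroup φ.ker, h1,
    Nat.card_congr (QuotientGroup.quotientKerEquivOfSurjective φ hφ).toEquiv, Nat.card_prod,
    Nat.card_eq_fintype_card, ZMod.card_units_eq_totient, Nat.card_eq_fintype_card,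
    show Fintype.card ℤˣ = 2 from rfl]
  have h2 : 2 ^ m = 2 * 2 ^ (m - 1) := by
    rw [← pow_succ', Nat.sub_add_cancel (by omega)]
  calc (2 ^ m).totient * 2 * 2 ^ (m - 1) = (2 * 2 ^ (m - 1)) * (2 ^ m).totient := by ring
    _ = 2 ^ m * (2 ^ m).totient := by rw [← h2]

lemma mem_range_of_dset {k : ℕ} (hk1 : 1 ≤ k) (hk : k ≤ m) {g : DAff (2 ^ m)}
    (hg : g ∈ dset m k) : g ∈ (daff hζ hs hβ).range := by
  refine (dtranslation_mem_iff hm hζ hs hβ hg.1 hg.2.1).mpr ?_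
  have h1 : (2 ^ (m - 1) : ℕ) = 2 ^ (k - 1) * 2 ^ (m - k) := by
    rw [← pow_add]
    congr 1
    omega
  rw [h1, Nat.cast_mul, mul_assoc, hg.2.2, mul_zero]

open Classical in
/-- **The density** of the primes which split in `ℚ(√5, ζ_{2^m}, θ^{1/2^k})`. -/
theorem hasMean_dset {k : ℕ} (hk1 : 1 ≤ k) (hk : k ≤ m) :
    HasMean (fun p => if daff hζ hs hβ (frob p) ∈ dset m k then (1 : ℝ) else 0)
      (1 / (((2 ^ m).totient : ℝ) * (2 : ℝ) ^ k)) := by
  set ρ : GQ →* (daff hζ hs hβ).range := (daff hζ hs hβ).rangeRestrict with hρ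
  have hsurj : Function.Surjective ρ := (daff hζ hs hβ).rangeRestrict_surjective
  have hlevel : ∃ L : IntermediateField ℚ Qbar, FiniteDimensional ℚ L ∧
      ∀ σ : GQ, (∀ x ∈ L, σ x = x) → ρ σ = 1 := by
    refine ⟨IntermediateField.adjoin ℚ {ζ, β, s},
      IntermediateField.finiteDimensional_adjoin fun x _ => Algebra.IsIntegral.isIntegral x,
      fun σ hσ => Subtype.ext ?_⟩
    have h1 := hσ _ (IntermediateField.subset_adjoin ℚ {ζ, β, s} (show ζ ∈ _ by simp))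
    have h2 := hσ _ (IntermediateField.subset_adjoin ℚ {ζ, β, s} (show β ∈ _ by simp))
    have h3 := hσ _ (IntermediateField.subset_adjoin ℚ {ζ, β, s} (show s ∈ _ by simp))
    have he : sgn hs σ = 1 := (sgn_one_iff hs σ).mpr h3
    ext
    · change kd hζ hs hβ σ = 0
      rw [kd_eq_of hζ hs hβ (n := 0) (by rw [h2, he]; simp), Int.cast_zero]
    · exact congrArg Units.val ((cyc_eq_one_iff hζ σ).mpr h1)
    · exact congrArg Units.val he
  have : Fintype (daff hζ hs hβ).range := Fintype.ofFinite _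
  have hmean := hasMean_class (r := ρ) (fun g => hasMean_NC hsurj hlevel g)
    (f := fun g => if (g : DAff (2 ^ m)) ∈ dset m k then (1 : ℝ) else 0) (fun x g => by
      simp only [Subgroup.coe_mul, Subgroup.coe_inv, conj_mem_dset])
  have hval : (∑ g : (daff hζ hs hβ).range, if (g : DAff (2 ^ m)) ∈ dset m k then (1 : ℝ) else 0) /
      Nat.card (daff hζ hs hβ).range = 1 / (((2 ^ m).totient : ℝ) * (2 : ℝ) ^ k) := by
    have h1 : (∑ g : (daff hζ hs hβ).range, if (g : DAff (2 ^ m)) ∈ dset m k then (1 : ℝ) else 0) =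
        (Nat.card (dset m k) : ℝ) := by
      rw [Finset.sum_boole, ← Fintype.card_subtype, ← Nat.card_eq_fintype_card]
      congr 1
      refine Nat.card_congr ⟨fun x => ⟨x.1.1, x.2⟩,
        fun y => ⟨⟨y.1, mem_range_of_dset hm hζ hs hβ hk1 hk y.2⟩, y.2⟩, fun x => rfl, fun y => rfl⟩
    have h2 : (((2 ^ m).totient : ℕ) : ℝ) ≠ 0 := by
      exact_mod_cast (Nat.totient_pos.mpr (NeZero.pos (2 ^ m))).ne'
    rw [h1, card_dset hk, card_drange hm hζ hs hβ]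
    push_cast
    rw [div_eq_div_iff (mul_ne_zero (by positivity) h2) (mul_ne_zero h2 (by positivity))]
    have h3 : (2 : ℝ) ^ (m - k) * 2 ^ k = 2 ^ m := by
      rw [← pow_add, Nat.sub_add_cancel hk]
    linear_combination (((2 ^ m).totient : ℕ) : ℝ) * h3
  rw [hval] at hmean
  exact hmean

end

open Classical in
/-- the primes `p ≡ 1 mod 4` which are inert in `ℚ(√5)` have density `1/4` -/
theorem hasMean_inert {ζ s : Qbar} (hζ : IsPrimitiveRoot ζ (2 ^ 2)) (hs : s ^ 2 = 5) :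
    HasMean (fun p => if p % 4 = 1 ∧ sgn hs (frob p) = -1 then (1 : ℝ) else 0) (1 / 4) := by
  have hN : NeZero (2 ^ 2) := ⟨by norm_num⟩
  have hlevel : ∃ L : IntermediateField ℚ Qbar, FiniteDimensional ℚ L ∧
      ∀ σ : GQ, (∀ x ∈ L, σ x = x) → (cyc hζ).prod (sgn hs) σ = 1 := by
    refine ⟨IntermediateField.adjoin ℚ {ζ, s},
      IntermediateField.finiteDimensional_adjoin fun x _ => Algebra.IsIntegral.isIntegral x,
      fun σ hσ => ?_⟩
    have h1 := hσ _ (IntermediateField.subset_adjoin ℚ {ζ, s} (show ζ ∈ _ by simp))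
    have h3 := hσ _ (IntermediateField.subset_adjoin ℚ {ζ, s} (show s ∈ _ by simp))
    exact Prod.ext ((cyc_eq_one_iff hζ σ).mpr h1) ((sgn_one_iff hs σ).mpr h3)
  have hsurj : Function.Surjective ((cyc hζ).prod (sgn hs)) := by
    intro v
    obtain ⟨τ, hτ, hτe⟩ := exists_cyc_sgn hζ hs v.1 v.2
    exact ⟨τ, Prod.ext hτ hτe⟩
  have hmean := hasMean_class (r := (cyc hζ).prod (sgn hs)) (fun g => hasMean_NC hsurj hlevel g)
    (f := fun g => if g = (1, -1) then (1 : ℝ) else 0) (fun x g => by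
      rw [mul_comm, mul_inv_cancel_left])
  have hval : (∑ g : (ZMod (2 ^ 2))ˣ × ℤˣ, if g = (1, -1) then (1 : ℝ) else 0) /
      Nat.card ((ZMod (2 ^ 2))ˣ × ℤˣ) = 1 / 4 := by
    rw [Finset.sum_ite_eq' Finset.univ ((1 : (ZMod (2 ^ 2))ˣ), (-1 : ℤˣ)),
      if_pos (Finset.mem_univ _), Nat.card_prod, Nat.card_eq_fintype_card,
      ZMod.card_units_eq_totient, Nat.card_eq_fintype_card, show Fintype.card ℤˣ = 2 from rfl,
      show Nat.totient (2 ^ 2) = 2 by decide]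
    norm_num
  rw [hval] at hmean
  refine hmean.congr {2} fun p hp hpS => ?_
  rw [Finset.mem_singleton] at hpS
  obtain ⟨A, hA, hσ⟩ := exists_frob_place hp
  have hcop : p.Coprime (2 ^ 2) := ((Nat.coprime_primes hp Nat.prime_two).mpr hpS).pow_right 2
  have h := cyc_frob hζ hA hσ hcop
  have h1 : cyc hζ (frob p) = 1 ↔ p % 4 = 1 := by
    rw [← Units.val_inj, h, Units.val_one, ← Nat.cast_one, ZMod.natCast_eq_natCast_iff']
    norm_num
  have h2 : (cyc hζ).prod (sgn hs) (frob p) = (1, -1) ↔ p % 4 = 1 ∧ sgn hs (frob p) = -1 := by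
    rw [← h1]
    exact Prod.ext_iff
  simp only [h2]

end Fermat.Agent.Cor.Ord
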