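import Fermat.Agent.Corollaries.Ord.Spl

/-!
# Hasse's density theorem for the order of `a` modulo `p`

`r` prime, `a` generic for `r`: the primes `p` such that `r` divides the order of `a` modulo `p` have
natural density `r / (r² - 1)`. For `r = 2` these are (up to finitely many) the prime divisors of the
numbers `aⁿ + 1`: density `2 / 3`.
-/

set_option autoImplicit false

open NumberField Filter Topology
open Fermat.Agent.Frob Fermat.Agent.FrobDensity Fermat.Agent.Cor.Cheb Fermat.Agent.Cor.Art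

namespace Fermat.Agent.Cor.Ord

local notation "Qbar" => AlgebraicClosure ℚ

/-! ### Squeezing mean values -/

lemma HasMean.squeeze {w : ℕ → ℝ} {c : ℝ}
    (h : ∀ ε : ℝ, 0 < ε → ∃ (v v' : ℕ → ℝ) (c₁ c₂ : ℝ) (S : Finset ℕ), HasMean v c₁ ∧
      HasMean v' c₂ ∧ c - ε < c₁ ∧ c₂ < c + ε ∧
        ∀ p : ℕ, p.Prime → p ∉ S → v p ≤ w p ∧ w p ≤ v' p) : HasMean w c := by
  classical
  rw [HasMean, tendsto_order]
  have key : ∀ ε : ℝ, 0 < ε → (∀ᶠ x : ℕ in atTop,
      c - ε < (∑ p ∈ primesTo x, w p) * Real.log x / x) ∧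
      ∀ᶠ x : ℕ in atTop, (∑ p ∈ primesTo x, w p) * Real.log x / x < c + ε := by
    intro ε hε
    obtain ⟨v, v', c₁, c₂, S, h1, h2, h3, h4, h5⟩ := h ε hε
    have h1' : HasMean (fun p => if p ∈ S then w p else v p) c₁ :=
      HasMean.congr h1 S fun p _ hpS => by simp only [if_neg hpS]
    have h2' : HasMean (fun p => if p ∈ S then w p else v' p) c₂ :=
      HasMean.congr h2 S fun p _ hpS => by simp only [if_neg hpS]
    constructor
    · filter_upwards [(show Tendsto _ _ _ from h1').eventually_const_lt h3] with x hx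
      refine hx.trans_le ?_
      have hl : 0 ≤ Real.log (x : ℝ) := Real.log_natCast_nonneg x
      have h6 : ∑ p ∈ primesTo x, (if p ∈ S then w p else v p) ≤ ∑ p ∈ primesTo x, w p := by
        refine Finset.sum_le_sum fun p hp => ?_
        split_ifs with hpS
        · exact le_rfl
        · exact (h5 p (mem_primesTo.mp hp).2 hpS).1
      gcongr
    · filter_upwards [(show Tendsto _ _ _ from h2').eventually_lt_const h4] with x hx
      refine lt_of_le_of_lt ?_ hx
      have hl : 0 ≤ Real.log (x : ℝ) := Real.log_natCast_nonneg x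
      have h6 : ∑ p ∈ primesTo x, w p ≤ ∑ p ∈ primesTo x, (if p ∈ S then w p else v' p) := by
        refine Finset.sum_le_sum fun p hp => ?_
        split_ifs with hpS
        · exact le_rfl
        · exact (h5 p (mem_primesTo.mp hp).2 hpS).2
      gcongr
  constructor
  · intro y hy
    filter_upwards [(key (c - y) (sub_pos.mpr hy)).1] with x hx
    linarith
  · intro y hy
    filter_upwards [(key (y - c) (sub_pos.mpr hy)).2] with x hx
    linarith

/-! ### Orders and powers -/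

section arith

variable {a : ℤ} {r p : ℕ}

lemma pow_card_eq_one (hp : p.Prime) (hpa : ¬ (p : ℤ) ∣ a) : ((a : ℤ) : ZMod p) ^ (p - 1) = 1 := by
  have : Fact p.Prime := ⟨hp⟩
  refine ZMod.pow_card_sub_one_eq_one ?_
  rw [Ne, ZMod.intCast_zmod_eq_zero_iff_dvd]
  exact hpa

/-- `r ∤ ord_p(a)` iff `a` is an `r^e`-th power, `r^e ∥ p - 1` -/
theorem not_dvd_order_iff (hr : r.Prime) (hp : p.Prime) (hpa : ¬ (p : ℤ) ∣ a) :
    ¬ r ∣ orderOf ((a : ℤ) : ZMod p) ↔
      ((a : ℤ) : ZMod p) ^ ((p - 1) / r ^ padicValNat r (p - 1)) = 1 := by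
  have : Fact r.Prime := ⟨hr⟩
  have hp1 : p - 1 ≠ 0 := by
    have := hp.two_le
    omega
  have hord : orderOf ((a : ℤ) : ZMod p) ∣ p - 1 := orderOf_dvd_of_pow_eq_one (pow_card_eq_one hp hpa)
  have hdiv : r ^ padicValNat r (p - 1) ∣ p - 1 := pow_padicValNat_dvd
  rw [← orderOf_dvd_iff_pow_eq_one]
  constructor
  · intro h
    have h1 : (orderOf ((a : ℤ) : ZMod p)).Coprime (r ^ padicValNat r (p - 1)) :=
      Nat.Coprime.pow_right _ (((Nat.Prime.coprime_iff_not_dvd hr).mpr h).symm)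
    refine h1.dvd_of_dvd_mul_left ?_
    rwa [Nat.mul_div_cancel' hdiv]
  · intro h hr'
    have h1 : r ∣ (p - 1) / r ^ padicValNat r (p - 1) := hr'.trans h
    have h2 : r ^ (padicValNat r (p - 1) + 1) ∣ p - 1 := by
      rw [pow_succ]
      conv_rhs => rw [← Nat.mul_div_cancel' hdiv]
      exact mul_dvd_mul_left _ h1
    exact pow_succ_padicValNat_not_dvd hp1 h2

lemma spl_iff (hr : r.Prime) (hp : p.Prime) (m k : ℕ) :
    Spl a r m k p ↔ m ≤ padicValNat r (p - 1) ∧ ((a : ℤ) : ZMod p) ^ ((p - 1) / r ^ k) = 1 := by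
  have : Fact r.Prime := ⟨hr⟩
  have hp1 : p - 1 ≠ 0 := by
    have := hp.two_le
    omega
  rw [Spl, padicValNat_dvd_iff_le hp1]

open Classical in
/-- the indicator of `r ^ j ∥ p - 1`, `a ^ ((p - 1) / r ^ j) = 1` -/
lemma spl_sub (hr : r.Prime) (hp : p.Prime) (hpa : ¬ (p : ℤ) ∣ a) (j : ℕ) :
    (if Spl a r j j p then (1 : ℝ) else 0) - (if Spl a r (j + 1) j p then (1 : ℝ) else 0) =
      if j = padicValNat r (p - 1) then
        (if r ∣ orderOf ((a : ℤ) : ZMod p) then (0 : ℝ) else 1) else 0 := by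
  rcases lt_trichotomy j (padicValNat r (p - 1)) with h | h | h
  · rw [if_neg h.ne]
    have h1 : Spl a r j j p ↔ Spl a r (j + 1) j p := by
      rw [spl_iff hr hp, spl_iff hr hp]
      exact and_congr_left fun _ => ⟨fun _ => h, fun _ => h.le⟩
    simp only [h1, sub_self]
  · rw [if_pos h]
    have h2 := not_dvd_order_iff hr hp hpa
    rw [← h] at h2
    have h3 : ¬ Spl a r (j + 1) j p := by
      rw [spl_iff hr hp]
      rintro ⟨h4, -⟩
      omega
    rw [if_neg h3, sub_zero]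
    have h4 : Spl a r j j p ↔ ¬ r ∣ orderOf ((a : ℤ) : ZMod p) := by
      rw [h2, spl_iff hr hp]
      exact ⟨fun h => h.2, fun h' => ⟨h.le, h'⟩⟩
    simp only [h4, ite_not]
  · rw [if_neg h.ne']
    have h3 : ¬ Spl a r j j p := by
      rw [spl_iff hr hp]
      rintro ⟨h4, -⟩
      omega
    have h4 : ¬ Spl a r (j + 1) j p := by
      rw [spl_iff hr hp]
      rintro ⟨h4, -⟩
      omega
    rw [if_neg h3, if_neg h4, sub_self]

end arith

/-! ### The densities of the pieces -/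

/-- the density of `r ^ j ∥ p - 1`, `r ∤ ord_p(a)` -/
noncomputable def piece (r j : ℕ) : ℝ :=
  1 / (((r ^ j).totient : ℝ) * (r : ℝ) ^ j) - 1 / (((r ^ (j + 1)).totient : ℝ) * (r : ℝ) ^ j)

lemma totient_cast {r : ℕ} (hr : r.Prime) (j : ℕ) :
    (((r ^ (j + 1)).totient : ℕ) : ℝ) = (r : ℝ) ^ j * ((r : ℝ) - 1) := by
  rw [Nat.totient_prime_pow_succ hr, Nat.cast_mul, Nat.cast_pow, Nat.cast_sub hr.one_le, Nat.cast_one]

lemma piece_zero {r : ℕ} (hr : r.Prime) : piece r 0 = 1 - 1 / ((r : ℝ) - 1) := by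
  rw [piece, totient_cast hr 0]
  simp

lemma piece_succ {r : ℕ} (hr : r.Prime) (j : ℕ) : piece r (j + 1) = (1 / (r : ℝ) ^ 2) ^ (j + 1) := by
  have h2 : (2 : ℝ) ≤ r := by exact_mod_cast hr.two_le
  have h0 : (r : ℝ) ≠ 0 := by linarith
  have h1 : (r : ℝ) - 1 ≠ 0 := by linarith
  have h3 : (1 / (r : ℝ) ^ 2) ^ (j + 1) = 1 / ((r : ℝ) ^ j * r) ^ 2 := by
    rw [one_div_pow, ← pow_mul, ← pow_succ, ← pow_mul, mul_comm 2]
  rw [piece, totient_cast hr j, totient_cast hr (j + 1), h3, pow_succ (r : ℝ) j]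
  have h4 : (r : ℝ) ^ j ≠ 0 := pow_ne_zero _ h0
  generalize (r : ℝ) ^ j = R at h4 ⊢
  field_simp

lemma tendsto_sum_piece {r : ℕ} (hr : r.Prime) :
    Tendsto (fun J : ℕ => ∑ j ∈ Finset.range J, piece r j) atTop
      (𝓝 (1 - (r : ℝ) / ((r : ℝ) ^ 2 - 1))) := by
  have h2 : (2 : ℝ) ≤ r := by exact_mod_cast hr.two_le
  set x : ℝ := 1 / (r : ℝ) ^ 2 with hx
  have hx0 : 0 ≤ x := by positivity
  have hx1 : x < 1 := by
    rw [hx, div_lt_one (by positivity)]
    nlinarith
  have h3 : Tendsto (fun J : ℕ => ∑ j ∈ Finset.range J, x ^ (j + 1)) atTop (𝓝 (x * (1 - x)⁻¹)) := by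
    have h4 := ((hasSum_geometric_of_lt_one hx0 hx1).mul_left x).tendsto_sum_nat
    refine h4.congr fun J => Finset.sum_congr rfl fun j _ => ?_
    rw [pow_succ, mul_comm]
  rw [← tendsto_add_atTop_iff_nat 1]
  have h5 : (fun J : ℕ => ∑ j ∈ Finset.range (J + 1), piece r j) = fun J : ℕ =>
      (∑ j ∈ Finset.range J, x ^ (j + 1)) + (1 - 1 / ((r : ℝ) - 1)) := by
    funext J
    rw [Finset.sum_range_succ', piece_zero hr]
    congr 1
    exact Finset.sum_congr rfl fun j _ => piece_succ hr j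
  rw [h5]
  have h6 : 1 - (r : ℝ) / ((r : ℝ) ^ 2 - 1) = x * (1 - x)⁻¹ + (1 - 1 / ((r : ℝ) - 1)) := by
    have h7 : (r : ℝ) - 1 ≠ 0 := by linarith
    have h8 : (r : ℝ) ^ 2 - 1 ≠ 0 := by nlinarith
    have h9 : (r : ℝ) ≠ 0 := by linarith
    have h10 : x * (1 - x)⁻¹ = 1 / ((r : ℝ) ^ 2 - 1) := by
      rw [hx]
      field_simp
    rw [h10]
    have h11 : (r : ℝ) ^ 2 - 1 = ((r : ℝ) - 1) * ((r : ℝ) + 1) := by ring
    have h12 : (r : ℝ) + 1 ≠ 0 := by linarith
    rw [h11]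
    field_simp
    ring
  rw [h6]
  exact h3.add_const _

lemma tendsto_tail {r : ℕ} (hr : r.Prime) :
    Tendsto (fun J : ℕ => 1 / (((r ^ J).totient : ℝ) * (r : ℝ) ^ 0)) atTop (𝓝 0) := by
  rw [← tendsto_add_atTop_iff_nat 1]
  have h2 : (2 : ℝ) ≤ r := by exact_mod_cast hr.two_le
  refine squeeze_zero (fun J => by positivity) (fun J => ?_)
    (tendsto_pow_atTop_nhds_zero_of_lt_one (by norm_num : (0 : ℝ) ≤ 1 / 2) (by norm_num))
  rw [totient_cast hr J, pow_zero, mul_one, one_div_pow]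
  refine one_div_le_one_div_of_le (by positivity) ?_
  have h3 : (2 : ℝ) ^ J ≤ (r : ℝ) ^ J := by gcongr
  have h4 : (0 : ℝ) ≤ (r : ℝ) ^ J := by positivity
  nlinarith

/-! ### The theorem -/

section main

variable {a : ℤ} {r : ℕ}

open Classical in
/-- **Hasse's theorem**, mean value form (complement) -/
theorem hasMean_not_dvd_order (hr : r.Prime) (hg : Gen a r) (ha : a ≠ 0) :
    HasMean (fun p => if r ∣ orderOf ((a : ℤ) : ZMod p) then (0 : ℝ) else 1)
      (1 - (r : ℝ) / ((r : ℝ) ^ 2 - 1)) := by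
  refine HasMean.squeeze fun ε hε => ?_
  obtain ⟨J, hJ1, hJ2⟩ := (((tendsto_sum_piece hr).eventually_const_lt
    (show 1 - (r : ℝ) / ((r : ℝ) ^ 2 - 1) - ε / 2 < _ by linarith)).and
    (((tendsto_sum_piece hr).add (tendsto_tail hr)).eventually_lt_const
      (show _ < 1 - (r : ℝ) / ((r : ℝ) ^ 2 - 1) + ε by linarith))).exists
  have hv : HasMean (fun p => ∑ j ∈ Finset.range J, ((if Spl a r j j p then (1 : ℝ) else 0) -
      (if Spl a r (j + 1) j p then (1 : ℝ) else 0))) (∑ j ∈ Finset.range J, piece r j) := by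
    refine HasMean.sum _ fun j _ => ?_
    have h1 := (hasMean_spl hr hg ha (le_refl j)).add
      ((hasMean_spl hr hg ha (Nat.le_succ j)).const_mul (-1))
    have h2 : (fun p => (if Spl a r j j p then (1 : ℝ) else 0) +
        (-1) * (if Spl a r (j + 1) j p then (1 : ℝ) else 0)) = fun p =>
        (if Spl a r j j p then (1 : ℝ) else 0) -
        (if Spl a r (j + 1) j p then (1 : ℝ) else 0) := by
      funext p
      ring
    have h3 : 1 / (((r ^ j).totient : ℝ) * (r : ℝ) ^ j) +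
        (-1) * (1 / (((r ^ (j + 1)).totient : ℝ) * (r : ℝ) ^ j)) = piece r j := by
      rw [piece]
      ring
    rw [h2, h3] at h1
    exact h1
  refine ⟨_, _, _, _, insert r a.natAbs.primeFactors, hv,
    hv.add (hasMean_spl hr hg ha (Nat.zero_le J)), by linarith, hJ2, fun p hp hpS => ?_⟩
  rw [Finset.mem_insert, not_or, Nat.mem_primeFactors] at hpS
  have hpa : ¬ (p : ℤ) ∣ a := fun h => hpS.2 ⟨hp, Int.natCast_dvd.mp h, Int.natAbs_ne_zero.mpr ha⟩
  have h1 : ∑ j ∈ Finset.range J, ((if Spl a r j j p then (1 : ℝ) else 0) -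
      (if Spl a r (j + 1) j p then (1 : ℝ) else 0)) = if padicValNat r (p - 1) < J then
        (if r ∣ orderOf ((a : ℤ) : ZMod p) then (0 : ℝ) else 1) else 0 := by
    rw [Finset.sum_congr rfl fun j _ => spl_sub hr hp hpa j, Finset.sum_ite_eq']
    simp only [Finset.mem_range]
  rw [h1]
  have h2 : Spl a r J 0 p ↔ ¬ padicValNat r (p - 1) < J := by
    rw [spl_iff hr hp, pow_zero, Nat.div_one, not_lt]
    exact ⟨fun h => h.1, fun h => ⟨h, pow_card_eq_one hp hpa⟩⟩
  simp only [h2]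
  have h3 : (0 : ℝ) ≤ if r ∣ orderOf ((a : ℤ) : ZMod p) then (0 : ℝ) else 1 := by
    split_ifs <;> norm_num
  have h4 : (if r ∣ orderOf ((a : ℤ) : ZMod p) then (0 : ℝ) else 1) ≤ 1 := by
    split_ifs <;> norm_num
  by_cases h5 : padicValNat r (p - 1) < J
  · rw [if_pos h5, if_neg (not_not.mpr h5), add_zero]
    exact ⟨le_rfl, le_rfl⟩
  · rw [if_neg h5, if_pos h5, zero_add]
    exact ⟨h3, h4⟩

open Classical in
/-- **Hasse's theorem**, mean value form -/
theorem hasMean_dvd_order (hr : r.Prime) (hg : Gen a r) (ha : a ≠ 0) :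
    HasMean (fun p => if r ∣ orderOf ((a : ℤ) : ZMod p) then (1 : ℝ) else 0)
      ((r : ℝ) / ((r : ℝ) ^ 2 - 1)) := by
  have h1 := (hasMean_const 1).add ((hasMean_not_dvd_order hr hg ha).const_mul (-1))
  have h2 : (1 : ℝ) + (-1) * (1 - (r : ℝ) / ((r : ℝ) ^ 2 - 1)) = (r : ℝ) / ((r : ℝ) ^ 2 - 1) := by ring
  rw [h2] at h1
  refine HasMean.congr h1 ∅ fun p _ _ => ?_
  split_ifs <;> norm_num

end main

end Fermat.Agent.Cor.Ord
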