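import Fermat.Agent.Corollaries.Ord.TwoGroup

/-!
# The prime divisors of `2ⁿ + 1`

The order of `2` modulo `p` is even for `17/24` of the primes (Hasse 1966): the prime divisors of the numbers
`2ⁿ + 1` have natural density `17/24`.
-/

set_option autoImplicit false

open NumberField Filter Topology
open Fermat.Agent.Frob Fermat.Agent.FrobDensity Fermat.Agent.Cor.Cheb Fermat.Agent.Cor.Art

namespace Fermat.Agent.Cor.Ord

local notation "Qbar" => AlgebraicClosure ℚ

/-! ### primes `≡ 7 mod 8` -/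

/-- the primes `p ≡ u mod N` have natural density `1 / φ(N)` -/
lemma hasMean_residue {N : ℕ} [NeZero N] (u : (ZMod N)ˣ) :
    HasMean (fun p => if ((p : ℕ) : ZMod N) = (u : ZMod N) then (1 : ℝ) else 0) (1 / (N.totient : ℝ)) := by
  have hN' : NeZero ((N : ℕ) : Qbar) := ⟨Nat.cast_ne_zero.mpr (NeZero.ne N)⟩
  obtain ⟨ζ, hζ⟩ := HasEnoughRootsOfUnity.exists_primitiveRoot Qbar N
  have hlevel : ∃ L : IntermediateField ℚ Qbar, FiniteDimensional ℚ L ∧
      ∀ σ : GQ, (∀ x ∈ L, σ x = x) → cyc hζ σ = 1 := by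
    refine ⟨IntermediateField.adjoin ℚ {ζ},
      IntermediateField.finiteDimensional_adjoin fun x _ => Algebra.IsIntegral.isIntegral x,
      fun σ hσ => (cyc_eq_one_iff hζ σ).mpr (hσ _ (IntermediateField.subset_adjoin _ _ (by simp)))⟩
  have hmean := hasMean_class (r := cyc hζ) (fun g => hasMean_NC (cyc_surjective hζ) hlevel g)
    (f := fun g => if g = u then (1 : ℝ) else 0) (fun x g => by
      rw [mul_comm, mul_inv_cancel_left])
  have hval : (∑ g : (ZMod N)ˣ, if g = u then (1 : ℝ) else 0) / Nat.card (ZMod N)ˣ =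
      1 / (N.totient : ℝ) := by
    rw [Finset.sum_ite_eq' Finset.univ u, if_pos (Finset.mem_univ _), Nat.card_eq_fintype_card,
      ZMod.card_units_eq_totient]
  rw [hval] at hmean
  refine hmean.congr N.primeFactors fun p hp hpS => ?_
  rw [Nat.mem_primeFactors] at hpS
  have hcop : p.Coprime N := (Nat.Prime.coprime_iff_not_dvd hp).mpr fun h => hpS ⟨hp, h, NeZero.ne N⟩
  obtain ⟨A, hA, hσ⟩ := exists_frob_place hp
  have h := cyc_frob hζ hA hσ hcop
  rw [← h]
  simp only [Units.val_inj]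

lemma hasMean_seven : HasMean (fun p => if p % 8 = 7 then (1 : ℝ) else 0) (1 / 4) := by
  have hcop : Nat.Coprime 7 8 := by norm_num
  have h := hasMean_residue (N := 8) (ZMod.unitOfCoprime 7 hcop)
  have h1 : (1 : ℝ) / (Nat.totient 8 : ℝ) = 1 / 4 := by
    rw [show Nat.totient 8 = 4 by decide]
    norm_num
  rw [h1] at h
  refine h.congr ∅ fun p _ _ => ?_
  have h2 : ((p : ℕ) : ZMod 8) = ((ZMod.unitOfCoprime 7 hcop : (ZMod 8)ˣ) : ZMod 8) ↔ p % 8 = 7 := by
    rw [ZMod.coe_unitOfCoprime, ZMod.natCast_eq_natCast_iff']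
  simp only [h2]

/-! ### Primes with small `2`-part of `p - 1` -/

lemma order_two_small {p : ℕ} (hp : p.Prime) (hp2 : p ≠ 2) (he : ¬ 8 ∣ p - 1) :
    ¬ 2 ∣ orderOf ((2 : ℤ) : ZMod p) ↔ p % 8 = 7 := by
  have hF : Fact p.Prime := ⟨hp⟩
  have hpa : ¬ (p : ℤ) ∣ 2 := fun h =>
    hp2 ((Nat.prime_dvd_prime_iff_eq hp Nat.prime_two).mp (by exact_mod_cast h))
  have hodd : p % 2 = 1 := hp.eq_two_or_odd.resolve_left hp2
  have hcast : ((2 : ℤ) : ZMod p) = 2 := by norm_num
  have h20 : (2 : ZMod p) ≠ 0 := by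
    rw [← hcast, Ne, ZMod.intCast_zmod_eq_zero_iff_dvd]
    exact hpa
  constructor
  · intro h
    have h1 : Odd (orderOf ((2 : ℤ) : ZMod p)) := by
      rw [← Nat.not_even_iff_odd, even_iff_two_dvd]
      exact h
    obtain ⟨k, hk⟩ := h1
    have h2 : IsSquare (2 : ZMod p) := by
      refine ⟨2 ^ (k + 1), ?_⟩
      have h3 := pow_orderOf_eq_one ((2 : ℤ) : ZMod p)
      rw [hk, hcast] at h3
      rw [← pow_add]
      have h4 : (2 : ZMod p) ^ (k + 1 + (k + 1)) = 2 ^ (2 * k + 1) * 2 := by ring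
      rw [h4, h3, one_mul]
    have h5 := (ZMod.exists_sq_eq_two_iff hp2).mp h2
    rcases h5 with h5 | h5
    · exfalso
      exact he (by omega)
    · exact h5
  · intro h h2
    have h3 : IsSquare (2 : ZMod p) := (ZMod.exists_sq_eq_two_iff hp2).mpr (Or.inr h)
    have h4 := (ZMod.euler_criterion p h20).mp h3
    have h5 : orderOf ((2 : ℤ) : ZMod p) ∣ p / 2 := orderOf_dvd_of_pow_eq_one (by rw [hcast]; exact h4)
    have h6 : 2 ∣ p / 2 := h2.trans h5
    omega

/-! ### The theorem -/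

open Classical in
/-- the difference of the indicators has the mean value `2 * piece 2 j` -/
lemma hasMean_piece_two {j : ℕ} (hj : 3 ≤ j) :
    HasMean (fun p => (if Spl 2 2 j j p then (1 : ℝ) else 0) -
      (if Spl 2 2 (j + 1) j p then (1 : ℝ) else 0)) (2 * piece 2 j) := by
  have h1 := (hasMean_spl_two hj (by omega) (le_refl j)).add
    ((hasMean_spl_two (show 3 ≤ j + 1 by omega) (by omega) (Nat.le_succ j)).const_mul (-1))
  have h2 : (fun p => (if Spl 2 2 j j p then (1 : ℝ) else 0) +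
      (-1) * (if Spl 2 2 (j + 1) j p then (1 : ℝ) else 0)) = fun p =>
      (if Spl 2 2 j j p then (1 : ℝ) else 0) -
      (if Spl 2 2 (j + 1) j p then (1 : ℝ) else 0) := by
    funext p
    ring
  have h3 : 2 / (((2 ^ j).totient : ℝ) * (2 : ℝ) ^ j) +
      (-1) * (2 / (((2 ^ (j + 1)).totient : ℝ) * (2 : ℝ) ^ j)) = 2 * piece 2 j := by
    rw [piece]
    push_cast
    ring
  rw [h2, h3] at h1
  exact h1

lemma gen_three : Gen 3 2 :=
  gen_two (ℓ := 3) (e := 1) (b := 1) Nat.prime_three (by norm_num) (by norm_num) odd_one (by norm_num)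

open Classical in
/-- **The order of `2` modulo `p` is odd for `7/24` of the primes**, mean value form -/
theorem hasMean_not_dvd_order_base_two :
    HasMean (fun p => if 2 ∣ orderOf ((2 : ℤ) : ZMod p) then (0 : ℝ) else 1) (7 / 24) := by
  have hlim : Tendsto (fun J : ℕ => 1 / 4 + ∑ j ∈ Finset.Ico 3 J, 2 * piece 2 j) atTop
      (𝓝 (7 / 24)) := by
    have h1 := tendsto_sum_piece Nat.prime_two
    have h2 : (7 : ℝ) / 24 = 1 / 4 + 2 * ((1 - ((2 : ℕ) : ℝ) / (((2 : ℕ) : ℝ) ^ 2 - 1)) - 5 / 16) := by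
      norm_num
    rw [h2]
    refine Tendsto.congr' ?_ ((((h1.sub_const (5 / 16)).const_mul 2)).const_add (1 / 4))
    filter_upwards [eventually_ge_atTop 3] with J hJ
    have h3 : ∑ j ∈ Finset.range 3, piece 2 j = 5 / 16 := by
      rw [Finset.sum_range_succ, Finset.sum_range_succ, Finset.sum_range_succ, Finset.sum_range_zero,
        piece_zero Nat.prime_two, piece_succ Nat.prime_two, piece_succ Nat.prime_two]
      norm_num
    rw [← Finset.mul_sum, Finset.sum_Ico_eq_sub _ hJ, h3]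
  refine HasMean.squeeze fun ε hε => ?_
  have hlim2 := hlim.add (tendsto_tail Nat.prime_two)
  rw [add_zero] at hlim2
  obtain ⟨J, ⟨hJ1, hJ2⟩, hJ3⟩ := (((hlim.eventually_const_lt
    (show (7 : ℝ) / 24 - ε < 7 / 24 by linarith)).and
    (hlim2.eventually_lt_const (show (7 : ℝ) / 24 < 7 / 24 + ε by linarith))).and
      (eventually_ge_atTop 3)).exists
  have hv : HasMean (fun p => (if p % 8 = 7 then (1 : ℝ) else 0) +
      ∑ j ∈ Finset.Ico 3 J, ((if Spl 2 2 j j p then (1 : ℝ) else 0) -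
      (if Spl 2 2 (j + 1) j p then (1 : ℝ) else 0))) (1 / 4 + ∑ j ∈ Finset.Ico 3 J, 2 * piece 2 j) :=
    hasMean_seven.add (HasMean.sum _ fun j hj => hasMean_piece_two (Finset.mem_Ico.mp hj).1)
  refine ⟨_, _, _, _, {2, 3}, hv,
    hv.add (hasMean_spl Nat.prime_two gen_three (by norm_num) (Nat.zero_le J)), hJ1, hJ2,
    fun p hp hpS => ?_⟩
  rw [Finset.mem_insert, Finset.mem_singleton, not_or] at hpS
  have hF : Fact p.Prime := ⟨hp⟩
  have hpa : ¬ (p : ℤ) ∣ 2 := fun h =>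
    hpS.1 ((Nat.prime_dvd_prime_iff_eq hp Nat.prime_two).mp (by exact_mod_cast h))
  have hpa3 : ¬ (p : ℤ) ∣ 3 := fun h =>
    hpS.2 ((Nat.prime_dvd_prime_iff_eq hp Nat.prime_three).mp (by exact_mod_cast h))
  have hp1 : p - 1 ≠ 0 := by
    have := hp.two_le
    omega
  have h1 : ∑ j ∈ Finset.Ico 3 J, ((if Spl 2 2 j j p then (1 : ℝ) else 0) -
      (if Spl 2 2 (j + 1) j p then (1 : ℝ) else 0)) =
        if 3 ≤ padicValNat 2 (p - 1) ∧ padicValNat 2 (p - 1) < J then
        (if 2 ∣ orderOf ((2 : ℤ) : ZMod p) then (0 : ℝ) else 1) else 0 := by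
    rw [Finset.sum_congr rfl fun j _ => spl_sub Nat.prime_two hp hpa j, Finset.sum_ite_eq']
    simp only [Finset.mem_Ico]
  rw [h1]
  have h2 : Spl 3 2 J 0 p ↔ ¬ padicValNat 2 (p - 1) < J := by
    rw [spl_iff Nat.prime_two hp, pow_zero, Nat.div_one, not_lt]
    exact ⟨fun h => h.1, fun h => ⟨h, pow_card_eq_one hp hpa3⟩⟩
  have h8 : 8 ∣ p - 1 ↔ 3 ≤ padicValNat 2 (p - 1) := by
    rw [show (8 : ℕ) = 2 ^ 3 by norm_num, padicValNat_dvd_iff_le hp1]
  simp only [h2]
  have h3 : (0 : ℝ) ≤ if 2 ∣ orderOf ((2 : ℤ) : ZMod p) then (0 : ℝ) else 1 := by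
    split_ifs <;> norm_num
  have h4 : (if 2 ∣ orderOf ((2 : ℤ) : ZMod p) then (0 : ℝ) else 1) ≤ 1 := by
    split_ifs <;> norm_num
  by_cases h5 : 3 ≤ padicValNat 2 (p - 1)
  · have h6 : ¬ p % 8 = 7 := by
      have h7 := h8.mpr h5
      omega
    rw [if_neg h6, zero_add]
    by_cases h7 : padicValNat 2 (p - 1) < J
    · rw [if_pos ⟨h5, h7⟩, if_neg (not_not.mpr h7), add_zero]
      exact ⟨le_rfl, le_rfl⟩
    · rw [if_neg (fun h => h7 h.2), if_pos h7, zero_add]
      exact ⟨h3, h4⟩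
  · have h6 : padicValNat 2 (p - 1) < J := by omega
    rw [if_neg (show ¬ (3 ≤ padicValNat 2 (p - 1) ∧ padicValNat 2 (p - 1) < J) from
      fun h => h5 h.1), if_neg (not_not.mpr h6), add_zero, add_zero]
    have h7 := order_two_small hp hpS.1 (fun h => h5 (h8.mp h))
    by_cases h9 : p % 8 = 7
    · rw [if_pos h9, if_neg (h7.mpr h9)]
      exact ⟨le_rfl, le_rfl⟩
    · rw [if_neg h9, if_pos (not_not.mp fun h => h9 (h7.mp h))]
      exact ⟨le_rfl, le_rfl⟩

open Classical in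
/-- **The order of `2` modulo `p` is even for `17/24` of the primes** (Hasse 1966), mean value form -/
theorem hasMean_dvd_order_base_two :
    HasMean (fun p => if 2 ∣ orderOf ((2 : ℤ) : ZMod p) then (1 : ℝ) else 0) (17 / 24) := by
  have h1 := (hasMean_const 1).add (hasMean_not_dvd_order_base_two.const_mul (-1))
  have h2 : (1 : ℝ) + (-1) * (7 / 24) = 17 / 24 := by norm_num
  rw [h2] at h1
  refine HasMean.congr h1 ∅ fun p _ _ => ?_
  split_ifs <;> norm_num

open Classical in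
/-- **Hasse 1966**: the order of `2` modulo `p` is even for `17/24` of the primes. -/
theorem density_even_order_base_two :
    Tendsto (fun x : ℕ => (((Finset.range (x + 1)).filter fun p : ℕ =>
      p.Prime ∧ 2 ∣ orderOf ((2 : ℤ) : ZMod p)).card : ℝ) / Nat.primeCounting x) atTop
      (𝓝 (17 / 24)) :=
  tendsto_ratio hasMean_dvd_order_base_two

open Classical in
/-- **Hasse 1966**: the prime divisors of the numbers `2ⁿ + 1` have natural density `17/24`. -/
theorem density_dvd_two_pow_add_one :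
    Tendsto (fun x : ℕ => (((Finset.range (x + 1)).filter fun p : ℕ =>
      p.Prime ∧ ∃ n : ℕ, p ∣ 2 ^ n + 1).card : ℝ) / Nat.primeCounting x) atTop
      (𝓝 (17 / 24)) := by
  refine tendsto_ratio (hasMean_dvd_order_base_two.congr {2} fun p hp hpS => ?_)
  rw [Finset.mem_singleton] at hpS
  have hpa : ¬ (p : ℤ) ∣ 2 := fun h =>
    hpS ((Nat.prime_dvd_prime_iff_eq hp Nat.prime_two).mp (by exact_mod_cast h))
  have h1 : (∃ n : ℕ, p ∣ 2 ^ n + 1) ↔ ∃ n : ℕ, (p : ℤ) ∣ 2 ^ n + 1 :=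
    exists_congr fun n => by exact_mod_cast (Int.natCast_dvd_natCast (m := p) (n := 2 ^ n + 1)).symm
  simp only [h1, exists_dvd_pow_add_one_iff hp hpS hpa]

end Fermat.Agent.Cor.Ord
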