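import Fermat.Agent.Corollaries.Ord.Final

/-!
# The Galois action on the roots of `X ^ (2 ^ m) - 2`

Since `√2 = ±(ζ₈ + ζ₈⁻¹)` the image of `aff` is not the full group `Aff (2 ^ m)` for `a = 2`, `3 ≤ m`: the
translations in the image are the even ones.
-/

set_option autoImplicit false

open NumberField Filter Topology
open Fermat.Agent.Frob Fermat.Agent.FrobDensity Fermat.Agent.Cor.Cheb Fermat.Agent.Cor.Art

namespace Fermat.Agent.Cor.Ord

local notation "Qbar" => AlgebraicClosure ℚ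

lemma zeta_pow_four {ζ : Qbar} (hζ : IsPrimitiveRoot ζ 8) : ζ ^ 4 = -1 := by
  have h2 : (ζ ^ 4 - 1) * (ζ ^ 4 + 1) = 0 := by
    have := hζ.pow_eq_one
    linear_combination this
  rcases mul_eq_zero.mp h2 with h3 | h3
  · exact absurd (sub_eq_zero.mp h3)
      (hζ.pow_ne_one_of_pos_of_lt (by norm_num) (by norm_num : 4 < 8))
  · exact eq_neg_of_add_eq_zero_left h3

lemma sq_zeta_add_inv {ζ : Qbar} (hζ : IsPrimitiveRoot ζ 8) : (ζ + ζ⁻¹) ^ 2 = 2 := by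
  have h0 : ζ ≠ 0 := hζ.ne_zero (by norm_num)
  have h1 := zeta_pow_four hζ
  field_simp
  linear_combination h1

lemma isUnit_of_half_mul_ne {m : ℕ} (hm : 1 ≤ m) {x : ZMod (2 ^ m)}
    (h : ((2 ^ (m - 1) : ℕ) : ZMod (2 ^ m)) * x ≠ 0) : IsUnit x := by
  have : NeZero (2 ^ m) := ⟨by positivity⟩
  have h3 : ¬ 2 ∣ x.val := by
    rintro ⟨t, ht⟩
    apply h
    have h4 : ((2 ^ (m - 1) : ℕ) : ZMod (2 ^ m)) * x = ((2 ^ m * t : ℕ) : ZMod (2 ^ m)) := by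
      conv_lhs => rw [← ZMod.natCast_zmod_val x, ht, ← Nat.cast_mul, ← mul_assoc, ← pow_succ,
        Nat.sub_add_cancel hm]
    rw [h4, ZMod.natCast_eq_zero_iff]
    exact dvd_mul_right _ _
  rw [← ZMod.natCast_zmod_val x, ZMod.isUnit_iff_coprime]
  exact Nat.Coprime.pow_right _ (((Nat.Prime.coprime_iff_not_dvd Nat.prime_two).mpr h3).symm)

lemma two_dvd_of_half_mul_eq {m : ℕ} (hm : 1 ≤ m) {x : ZMod (2 ^ m)}
    (h : ((2 ^ (m - 1) : ℕ) : ZMod (2 ^ m)) * x = 0) : ∃ n : ℕ, x = ((2 * n : ℕ) : ZMod (2 ^ m)) := by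
  have : NeZero (2 ^ m) := ⟨by positivity⟩
  have h2 : ((2 ^ (m - 1) * x.val : ℕ) : ZMod (2 ^ m)) = 0 := by
    rw [Nat.cast_mul, ZMod.natCast_zmod_val]
    exact h
  rw [ZMod.natCast_eq_zero_iff] at h2
  have h3 : 2 ^ (m - 1) * 2 ∣ 2 ^ (m - 1) * x.val := by
    rwa [← pow_succ, Nat.sub_add_cancel hm]
  obtain ⟨n, hn⟩ := Nat.dvd_of_mul_dvd_mul_left (by positivity) h3
  exact ⟨n, by rw [← hn, ZMod.natCast_zmod_val]⟩

section

variable {m : ℕ} [NeZero (2 ^ m)] {ζ α : Qbar} (hm : 3 ≤ m) (hζ : IsPrimitiveRoot ζ (2 ^ m))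
  (hα : α ^ (2 ^ m) = ((2 : ℤ) : Qbar)) (ha : (2 : ℤ) ≠ 0)

include hm hζ

omit [NeZero (2 ^ m)] in
lemma prim_eight : IsPrimitiveRoot (ζ ^ (2 ^ (m - 3))) 8 := by
  refine hζ.pow (by positivity) ?_
  rw [show (8 : ℕ) = 2 ^ 3 by norm_num, ← pow_add, Nat.sub_add_cancel hm]

include hα

omit [NeZero (2 ^ m)] in
lemma beta_eq : α ^ (2 ^ (m - 1)) = ζ ^ (2 ^ (m - 3)) + (ζ ^ (2 ^ (m - 3)))⁻¹ ∨
    α ^ (2 ^ (m - 1)) = -(ζ ^ (2 ^ (m - 3)) + (ζ ^ (2 ^ (m - 3)))⁻¹) := by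
  refine sq_eq_sq_iff_eq_or_eq_neg.mp ?_
  rw [sq_zeta_add_inv (prim_eight hm hζ), ← pow_mul, ← pow_succ, Nat.sub_add_cancel (by omega), hα]
  norm_num

/-- translations in the image are even -/
lemma half_mul_kc_of_cyc {σ : GQ} (h : cyc hζ σ = 1) :
    ((2 ^ (m - 1) : ℕ) : ZMod (2 ^ m)) * kc hζ hα ha σ = 0 := by
  rw [← pow_fix_iff hζ hα]
  have h1 : σ ζ = ζ := (cyc_eq_one_iff hζ σ).mp h
  rcases beta_eq hm hζ hα with h2 | h2
  · rw [h2, map_add, map_inv₀, map_pow, h1]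
  · rw [h2, map_neg, map_add, map_inv₀, map_pow, h1]

/-- an automorphism which moves `√2` -/
lemma half_mul_kc_ne {σ : GQ} (h : ((cyc hζ σ : (ZMod (2 ^ m))ˣ) : ZMod (2 ^ m)) = 5) :
    ((2 ^ (m - 1) : ℕ) : ZMod (2 ^ m)) * kc hζ hα ha σ ≠ 0 := by
  rw [Ne, ← pow_fix_iff hζ hα]
  have h0 := prim_eight hm hζ
  have h1 : σ ζ = ζ ^ 5 := by
    rw [cyc_spec hζ σ, h]
    have h5 := zeta_pow_val hζ 5
    exact_mod_cast h5
  set ξ := ζ ^ (2 ^ (m - 3)) with hξ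
  have h2 : σ ξ = -ξ := by
    have h3 : σ ξ = ξ ^ 4 * ξ := by
      rw [hξ, map_pow, h1]
      ring
    rw [h3, zeta_pow_four h0, neg_one_mul]
  have h4 := sq_zeta_add_inv h0
  have hne : ξ + ξ⁻¹ ≠ 0 := by
    intro h5
    rw [h5] at h4
    norm_num at h4
  intro h5
  rcases beta_eq hm hζ hα with h6 | h6
  · rw [h6, ← hξ, map_add, map_inv₀, h2, inv_neg] at h5
    apply hne
    linear_combination (-1 / 2 : Qbar) * h5
  · rw [h6, ← hξ, map_neg, map_add, map_inv₀, h2, inv_neg] at h5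
    apply hne
    linear_combination (1 / 2 : Qbar) * h5

lemma exists_even_translation : ∃ κ : GQ, cyc hζ κ = 1 ∧
    ∃ w : (ZMod (2 ^ m))ˣ, kc hζ hα ha κ = 2 * (w : ZMod (2 ^ m)) := by
  obtain ⟨σ, hσ⟩ := cyc_surjective hζ (-1)
  obtain ⟨τ, hτ⟩ := cyc_surjective hζ
    (ZMod.unitOfCoprime 5 (Nat.Coprime.pow_right m (by norm_num)))
  have hτ5 : ((cyc hζ τ : (ZMod (2 ^ m))ˣ) : ZMod (2 ^ m)) = 5 := by
    rw [hτ, ZMod.coe_unitOfCoprime]
    norm_num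
  have hne := half_mul_kc_ne hm hζ hα ha hτ5
  have hcast : ((2 ^ (m - 1) : ℕ) : ZMod (2 ^ m)) * 2 = 0 := by
    have h1 : ((2 ^ (m - 1) : ℕ) : ZMod (2 ^ m)) * 2 = ((2 ^ (m - 1) * 2 : ℕ) : ZMod (2 ^ m)) := by
      push_cast
      ring
    rw [h1, ← pow_succ, Nat.sub_add_cancel (by omega), ZMod.natCast_self]
  have hu : IsUnit (-2 * kc hζ hα ha σ - kc hζ hα ha τ) := by
    refine isUnit_of_half_mul_ne (by omega) ?_
    intro h
    apply hne
    linear_combination -h - kc hζ hα ha σ * hcast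
  obtain ⟨w, hw⟩ := hu
  refine ⟨σ * τ * σ⁻¹ * τ⁻¹, cyc_comm_eq_one hζ σ τ, w, ?_⟩
  rw [hw, ← aff_c hζ hα ha, map_mul, map_mul, map_mul, map_inv, map_inv]
  simp only [Aff.mul_c, Aff.mul_u, Aff.inv_c, Aff.inv_u, aff_c, aff_u, Units.val_mul]
  have h3 : ((cyc hζ τ : (ZMod (2 ^ m))ˣ) : ZMod (2 ^ m)) *
      (((cyc hζ τ)⁻¹ : (ZMod (2 ^ m))ˣ) : ZMod (2 ^ m)) = 1 := Units.mul_inv _
  have h4 : ((cyc hζ σ : (ZMod (2 ^ m))ˣ) : ZMod (2 ^ m)) = -1 := by rw [hσ]; simp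
  have h5 : (((cyc hζ σ)⁻¹ : (ZMod (2 ^ m))ˣ) : ZMod (2 ^ m)) = -1 := by rw [hσ]; simp
  rw [h4, h5]
  rw [hτ5] at h3 ⊢
  linear_combination (-kc hζ hα ha τ) * h3

/-- the translations in the image are the even ones -/
theorem translation_mem_iff {g : Aff (2 ^ m)} (hg : g.u = 1) :
    g ∈ (aff hζ hα ha).range ↔ ((2 ^ (m - 1) : ℕ) : ZMod (2 ^ m)) * g.c = 0 := by
  constructor
  · rintro ⟨σ, rfl⟩
    exact half_mul_kc_of_cyc hm hζ hα ha hg
  · intro h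
    obtain ⟨n, hn⟩ := two_dvd_of_half_mul_eq (by omega) h
    obtain ⟨κ, hκ, w, hw⟩ := exists_even_translation hm hζ hα ha
    have h3 : aff hζ hα ha κ = ⟨kc hζ hα ha κ, 1⟩ := by
      ext
      · rfl
      · exact congrArg Units.val hκ
    set k : ℕ := ((n : ZMod (2 ^ m)) * ((w⁻¹ : (ZMod (2 ^ m))ˣ) : ZMod (2 ^ m))).val with hk
    refine ⟨κ ^ k, ?_⟩
    rw [map_pow, h3, Aff.translation_pow]
    ext
    · change (k : ZMod (2 ^ m)) * kc hζ hα ha κ = g.c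
      rw [hk, ZMod.natCast_zmod_val, hw, hn]
      have h5 : (((w⁻¹ : (ZMod (2 ^ m))ˣ)) : ZMod (2 ^ m)) * (w : ZMod (2 ^ m)) = 1 := Units.inv_mul _
      push_cast
      linear_combination (2 * (n : ZMod (2 ^ m))) * h5
    · exact congrArg Units.val hg.symm

lemma card_range : Nat.card (aff hζ hα ha).range = 2 ^ (m - 1) * (2 ^ m).totient := by
  let φ : (aff hζ hα ha).range →* (ZMod (2 ^ m))ˣ :=
    { toFun := fun g => g.1.u
      map_one' := rfl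
      map_mul' := fun _ _ => rfl }
  have hφ : Function.Surjective φ := by
    intro v
    obtain ⟨τ, hτ⟩ := cyc_surjective hζ v
    exact ⟨⟨aff hζ hα ha τ, ⟨τ, rfl⟩⟩, hτ⟩
  have h1 : Nat.card φ.ker = 2 ^ (m - 1) := by
    rw [← card_cset (r := 2) (m := m) (k := 1) two_ne_zero (by omega)]
    refine Nat.card_congr ⟨fun x => ⟨x.1.1, x.2, (translation_mem_iff hm hζ hα ha x.2).mp x.1.2⟩,
      fun y => ⟨⟨y.1, (translation_mem_iff hm hζ hα ha y.2.1).mpr y.2.2⟩, y.2.1⟩,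
      fun x => rfl, fun y => rfl⟩
  rw [Subgroup.card_eq_card_quotient_mul_card_subgroup φ.ker, h1, mul_comm,
    Nat.card_congr (QuotientGroup.quotientKerEquivOfSurjective φ hφ).toEquiv,
    Nat.card_eq_fintype_card, ZMod.card_units_eq_totient]

lemma mem_range_of_cset {k : ℕ} (hk1 : 1 ≤ k) (hk : k ≤ m) {g : Aff (2 ^ m)}
    (hg : g ∈ cset 2 m k) : g ∈ (aff hζ hα ha).range := by
  refine (translation_mem_iff hm hζ hα ha hg.1).mpr ?_
  have h1 : (2 ^ (m - 1) : ℕ) = 2 ^ (k - 1) * 2 ^ (m - k) := by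
    rw [← pow_add]
    congr 1
    omega
  rw [h1, Nat.cast_mul, mul_assoc, hg.2, mul_zero]

end

open Classical in
/-- **The density** of the primes which split in `ℚ(ζ_{2^m}, 2^{1/2^k})`. -/
theorem hasMean_spl_two {m k : ℕ} (hm : 3 ≤ m) (hk1 : 1 ≤ k) (hk : k ≤ m) :
    HasMean (fun p => if Spl 2 2 m k p then (1 : ℝ) else 0)
      (2 / (((2 ^ m).totient : ℝ) * (2 : ℝ) ^ k)) := by
  have hN : NeZero (2 ^ m) := ⟨by positivity⟩
  have hN' : NeZero ((2 ^ m : ℕ) : Qbar) := ⟨Nat.cast_ne_zero.mpr (by positivity)⟩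
  have ha : (2 : ℤ) ≠ 0 := two_ne_zero
  obtain ⟨ζ, hζ⟩ := HasEnoughRootsOfUnity.exists_primitiveRoot Qbar (2 ^ m)
  obtain ⟨α, hα⟩ := IsAlgClosed.exists_pow_nat_eq ((2 : ℤ) : Qbar) (NeZero.pos (2 ^ m))
  set ρ : GQ →* (aff hζ hα ha).range := (aff hζ hα ha).rangeRestrict with hρ
  have hsurj : Function.Surjective ρ := (aff hζ hα ha).rangeRestrict_surjective
  have hlevel : ∃ L : IntermediateField ℚ Qbar, FiniteDimensional ℚ L ∧
      ∀ σ : GQ, (∀ x ∈ L, σ x = x) → ρ σ = 1 := by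
    refine ⟨IntermediateField.adjoin ℚ {ζ, α},
      IntermediateField.finiteDimensional_adjoin fun x _ => Algebra.IsIntegral.isIntegral x,
      fun σ hσ => Subtype.ext ((aff_eq_one_iff hζ hα ha σ).mpr
        ⟨hσ _ (IntermediateField.subset_adjoin _ _ (by simp)),
          hσ _ (IntermediateField.subset_adjoin _ _ (by simp))⟩)⟩
  have : Fintype (aff hζ hα ha).range := Fintype.ofFinite _
  have hmean := hasMean_class (r := ρ) (fun g => hasMean_NC hsurj hlevel g)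
    (f := fun g => if (g : Aff (2 ^ m)) ∈ cset 2 m k then (1 : ℝ) else 0) (fun x g => by
      simp only [Subgroup.coe_mul, Subgroup.coe_inv, conj_mem_cset])
  have hval : (∑ g : (aff hζ hα ha).range, if (g : Aff (2 ^ m)) ∈ cset 2 m k then (1 : ℝ) else 0) /
      Nat.card (aff hζ hα ha).range = 2 / (((2 ^ m).totient : ℝ) * (2 : ℝ) ^ k) := by
    have h1 : (∑ g : (aff hζ hα ha).range, if (g : Aff (2 ^ m)) ∈ cset 2 m k then (1 : ℝ) else 0) =
        (Nat.card (cset 2 m k) : ℝ) := by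
      rw [Finset.sum_boole, ← Fintype.card_subtype, ← Nat.card_eq_fintype_card]
      congr 1
      refine Nat.card_congr ⟨fun x => ⟨x.1.1, x.2⟩,
        fun y => ⟨⟨y.1, mem_range_of_cset hm hζ hα ha hk1 hk y.2⟩, y.2⟩, fun x => rfl, fun y => rfl⟩
    have h2 : (((2 ^ m).totient : ℕ) : ℝ) ≠ 0 := by
      exact_mod_cast (Nat.totient_pos.mpr (NeZero.pos (2 ^ m))).ne'
    rw [h1, card_cset two_ne_zero hk, card_range hm hζ hα ha]
    push_cast
    rw [div_eq_div_iff (mul_ne_zero (by positivity) h2) (mul_ne_zero h2 (by positivity))]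
    have h3 : (2 : ℝ) ^ (m - k) * 2 ^ k = 2 * 2 ^ (m - 1) := by
      rw [← pow_add, ← pow_succ', Nat.sub_add_cancel hk, Nat.sub_add_cancel (by omega)]
    linear_combination (((2 ^ m).totient : ℕ) : ℝ) * h3
  rw [hval] at hmean
  refine hmean.congr {2} fun p hp hpS => ?_
  rw [Finset.mem_singleton] at hpS
  have hpa : ¬ (p : ℤ) ∣ 2 := fun h =>
    hpS ((Nat.prime_dvd_prime_iff_eq hp Nat.prime_two).mp (by exact_mod_cast h))
  obtain ⟨A, hA, hσ⟩ := exists_frob_place hp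
  have h := mem_cset_iff Nat.prime_two ha hk hζ hα hp hA hσ hpS hpa
  change (if aff hζ hα ha (frob p) ∈ cset 2 m k then (1 : ℝ) else 0) = _
  simp only [h]

end Fermat.Agent.Cor.Ord
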